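/-
Program C (S55), package C3 (local fields in the `PadicAlgCl q` model): residue calculus by
congruences `‖x - y‖ < 1` in `Ω = PadicAlgCl q`, roots of unity of order prime to `q`
(Teichmüller representatives by a Krasner-type argument, no Hensel), and successive
approximation in unramified extensions.  helper63.
-/
import Fermat.Agent.S55.H66.LocalBridge

set_option autoImplicit false

noncomputable section

namespace Fermat.Agent.S55.H63

open IntermediateField Polynomial Fermat.Agent.S55.H66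

variable (q : ℕ) [Fact q.Prime]

/-! ### Automorphisms are isometries -/

/-- `ℚ_q`-automorphisms of `Ω` are isometries. -/
theorem norm_algEquiv (σ : PadicAlgCl q ≃ₐ[ℚ_[q]] PadicAlgCl q) (x : PadicAlgCl q) :
    ‖σ x‖ = ‖x‖ := by
  rw [← PadicAlgCl.spectralNorm_eq, ← PadicAlgCl.spectralNorm_eq]
  exact (spectralNorm_eq_of_equiv σ x).symm

/-- Two elements of `Ω` with the same minimal polynomial over `ℚ_q` have the same norm. -/
theorem norm_eq_of_minpoly_eq {x y : PadicAlgCl q} (h : minpoly ℚ_[q] x = minpoly ℚ_[q] y) :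
    ‖x‖ = ‖y‖ := by
  rw [← PadicAlgCl.spectralNorm_eq, ← PadicAlgCl.spectralNorm_eq]
  simp only [spectralNorm, h]

section Tower

variable (F : Type) [Field F] [Algebra ℚ_[q] F] [Algebra F (PadicAlgCl q)]
  [IsScalarTower ℚ_[q] F (PadicAlgCl q)]

/-- `F`-automorphisms of `Ω` are isometries. -/
theorem norm_algEquiv_of_tower (σ : PadicAlgCl q ≃ₐ[F] PadicAlgCl q) (x : PadicAlgCl q) :
    ‖σ x‖ = ‖x‖ :=
  norm_algEquiv q (σ.restrictScalars ℚ_[q]) x

variable {F} in
/-- Automorphisms of an extension `L/F` inside `Ω` preserve the norm. -/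
theorem nrm_algEquiv (L : IntermediateField F (PadicAlgCl q)) (σ : L ≃ₐ[F] L) (x : L) :
    nrm q (σ x) = nrm q x := by
  refine norm_eq_of_minpoly_eq q ?_
  have h1 : minpoly ℚ_[q] (algebraMap L (PadicAlgCl q) (σ x)) = minpoly ℚ_[q] (σ x) :=
    minpoly.algebraMap_eq (algebraMap L (PadicAlgCl q)).injective _
  have h2 : minpoly ℚ_[q] (algebraMap L (PadicAlgCl q) x) = minpoly ℚ_[q] x :=
    minpoly.algebraMap_eq (algebraMap L (PadicAlgCl q)).injective _
  rw [h1, h2]
  exact minpoly.algEquiv_eq (σ.restrictScalars ℚ_[q]) x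

variable {F} in
/-- An element of `Ω` fixed by all `L`-automorphisms of `Ω` lies in `L`. -/
theorem mem_of_fixed (L : IntermediateField F (PadicAlgCl q)) (y : PadicAlgCl q)
    (h : ∀ σ : PadicAlgCl q ≃ₐ[L] PadicAlgCl q, σ y = y) : y ∈ L := by
  have halg : Algebra.IsAlgebraic L (PadicAlgCl q) :=
    Algebra.IsAlgebraic.tower_top (K := ℚ_[q]) L
  have hcl : IsAlgClosure L (PadicAlgCl q) := ⟨inferInstance, halg⟩
  have hnorm : Normal L (PadicAlgCl q) := IsAlgClosure.normal _ _
  have hgal : IsGalois L (PadicAlgCl q) := ⟨⟩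
  obtain ⟨z, hz⟩ := (InfiniteGalois.mem_range_algebraMap_iff_fixed (k := L) y).2 h
  rw [← hz]
  exact z.2

end Tower

/-! ### Roots near a point -/

/-- A product of real numbers `≥ 1` is `≥ 1`. -/
theorem one_le_multiset_prod_real (m : Multiset ℝ) (h : ∀ y ∈ m, (1 : ℝ) ≤ y) : 1 ≤ m.prod := by
  induction m using Multiset.induction_on with
  | empty => simp
  | cons a m ih =>
    rw [Multiset.prod_cons]
    have h1 : 1 ≤ a := h a (Multiset.mem_cons_self a m)
    have h2 : 1 ≤ m.prod := ih fun y hy => h y (Multiset.mem_cons_of_mem hy)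
    nlinarith

/-- If a monic polynomial over `Ω` has small value at `x`, some root is close to `x`. -/
theorem exists_root_norm_sub_lt (P : (PadicAlgCl q)[X]) (hP : P.Monic) (x : PadicAlgCl q)
    (hx : ‖P.eval x‖ < 1) : ∃ r : PadicAlgCl q, P.IsRoot r ∧ ‖x - r‖ < 1 := by
  by_contra hcon
  push Not at hcon
  have hP0 : P ≠ 0 := hP.ne_zero
  have h1 := (IsAlgClosed.splits P).eval_eq_prod_roots_of_monic hP x
  have h2 : (1 : ℝ) ≤ ((P.roots.map (x - ·)).map (fun y => ‖y‖)).prod := by
    refine one_le_multiset_prod_real _ ?_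
    intro y hy
    rw [Multiset.mem_map] at hy
    obtain ⟨z, hz, rfl⟩ := hy
    rw [Multiset.mem_map] at hz
    obtain ⟨r, hr, rfl⟩ := hz
    exact hcon r ((mem_roots hP0).1 hr)
  have h3 : ‖(P.roots.map (x - ·)).prod‖ = ((P.roots.map (x - ·)).map (fun y => ‖y‖)).prod :=
    map_multiset_prod (normHom : PadicAlgCl q →*₀ ℝ) _
  rw [h1, h3] at hx
  linarith

/-- Natural numbers prime to `q` have norm one in `Ω`. -/
theorem norm_natCast_of_not_dvd {N : ℕ} (hN : ¬ q ∣ N) : ‖(N : PadicAlgCl q)‖ = 1 := by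
  have h1 : (N : PadicAlgCl q) = algebraMap ℚ_[q] (PadicAlgCl q) (N : ℚ_[q]) := by simp
  rw [h1, PadicAlgCl.norm_extends, Padic.norm_natCast_eq_one_iff]
  exact (Nat.Prime.coprime_iff_not_dvd (Fact.out : q.Prime)).2 hN

/-- Norm of a root of unity. -/
theorem norm_eq_one_of_pow_eq_one {N : ℕ} (hN : N ≠ 0) {ζ : PadicAlgCl q} (hζ : ζ ^ N = 1) :
    ‖ζ‖ = 1 := by
  have h : ‖ζ‖ ^ N = 1 := by rw [← norm_pow, hζ, norm_one]
  exact (pow_eq_one_iff_of_nonneg (norm_nonneg _) hN).1 h

/-- Roots of unity of order prime to `q` are determined by their residue classes. -/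
theorem eq_of_pow_eq_one_of_norm_sub_lt {N : ℕ} (hN : ¬ q ∣ N) {ζ₁ ζ₂ : PadicAlgCl q}
    (h₁ : ζ₁ ^ N = 1) (h₂ : ζ₂ ^ N = 1) (h : ‖ζ₁ - ζ₂‖ < 1) : ζ₁ = ζ₂ := by
  have hN0 : N ≠ 0 := by
    rintro rfl
    exact hN (dvd_zero q)
  by_contra hne
  have hn2 : ‖ζ₂‖ = 1 := norm_eq_one_of_pow_eq_one q hN0 h₂
  have hζ₂0 : ζ₂ ≠ 0 := by
    rintro rfl
    rw [norm_zero] at hn2
    exact zero_ne_one hn2
  set u : PadicAlgCl q := ζ₁ / ζ₂ with hu
  have huN : u ^ N = 1 := by rw [hu, div_pow, h₁, h₂, div_one]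
  have hu1 : u ≠ 1 := by
    intro h1
    apply hne
    rw [hu, div_eq_one_iff_eq hζ₂0] at h1
    exact h1
  have hnu : ‖u‖ = 1 := norm_eq_one_of_pow_eq_one q hN0 huN
  have hu1lt : ‖1 - u‖ < 1 := by
    have : 1 - u = (ζ₂ - ζ₁) / ζ₂ := by
      rw [hu]
      field_simp
    rw [this, norm_div, hn2, div_one, norm_sub_rev]
    exact h
  have hsum : ∑ i ∈ Finset.range N, u ^ i = 0 := by
    have h3 := geom_sum_mul u N
    rw [huN, sub_self] at h3
    rcases mul_eq_zero.1 h3 with h4 | h4
    · exact h4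
    · exact absurd (sub_eq_zero.1 h4) hu1
  have hN' : (N : PadicAlgCl q) = ∑ i ∈ Finset.range N, (1 - u ^ i) := by
    rw [Finset.sum_sub_distrib, hsum, sub_zero]
    simp
  have hle : ‖(N : PadicAlgCl q)‖ ≤ ‖1 - u‖ := by
    rw [hN']
    refine IsUltrametricDist.norm_sum_le_of_forall_le_of_nonneg (norm_nonneg _) ?_
    intro i _
    have h5 : 1 - u ^ i = (∑ j ∈ Finset.range i, u ^ j) * (1 - u) := (geom_sum_mul_neg u i).symm
    rw [h5, norm_mul]
    have h6 : ‖∑ j ∈ Finset.range i, u ^ j‖ ≤ 1 := by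
      refine IsUltrametricDist.norm_sum_le_of_forall_le_of_nonneg zero_le_one ?_
      intro j _
      rw [norm_pow, hnu, one_pow]
    calc ‖∑ j ∈ Finset.range i, u ^ j‖ * ‖1 - u‖ ≤ 1 * ‖1 - u‖ :=
          mul_le_mul_of_nonneg_right h6 (norm_nonneg _)
      _ = ‖1 - u‖ := one_mul _
  rw [norm_natCast_of_not_dvd q hN] at hle
  linarith

/-- Ultrametric inequality in the form used below. -/
theorem norm_sub_lt_one_trans {x y z : PadicAlgCl q} (h₁ : ‖x - y‖ < 1) (h₂ : ‖y - z‖ < 1) :
    ‖x - z‖ < 1 := by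
  have h : x - z = (x - y) + (y - z) := by ring
  rw [h]
  exact lt_of_le_of_lt (IsUltrametricDist.norm_add_le_max _ _) (max_lt h₁ h₂)

section Krasner

variable (F : Type) [Field F] [Algebra ℚ_[q] F] [Algebra F (PadicAlgCl q)]
  [IsScalarTower ℚ_[q] F (PadicAlgCl q)]

variable {F} in
/-- **Krasner-type lemma.**  Let `r ∈ Ω` be a root of `P ∈ L[X]` which is the only root of `P`
in its open unit disc, and suppose this disc contains an element of `L`.  Then `r ∈ L`. -/
theorem mem_of_isolated_root (L : IntermediateField F (PadicAlgCl q)) (P : L[X]) (x : L)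
    (r : PadicAlgCl q) (hr : aeval r P = 0) (hx : ‖(x : PadicAlgCl q) - r‖ < 1)
    (hiso : ∀ r' : PadicAlgCl q, aeval r' P = 0 → ‖r' - r‖ < 1 → r' = r) : r ∈ L := by
  refine mem_of_fixed q L r fun σ => ?_
  refine hiso (σ r) ?_ ?_
  · rw [aeval_algEquiv, AlgHom.comp_apply, hr]
    exact map_zero _
  · have h1 : ‖σ r - (x : PadicAlgCl q)‖ < 1 := by
      have h2 : σ r - (x : PadicAlgCl q) = σ (r - (x : PadicAlgCl q)) := by
        rw [map_sub]
        congr 1
        exact (σ.commutes x).symm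
      rw [h2, norm_algEquiv_of_tower q L σ, norm_sub_rev]
      exact hx
    exact norm_sub_lt_one_trans q h1 hx

variable {F} in
/-- A root of unity of order prime to `q` which is congruent to an element of `L` lies in
`L`. -/
theorem mem_of_pow_eq_one_of_norm_sub_lt (L : IntermediateField F (PadicAlgCl q)) {N : ℕ}
    (hN : ¬ q ∣ N) (x : L) (ζ : PadicAlgCl q) (hζ : ζ ^ N = 1)
    (hx : ‖(x : PadicAlgCl q) - ζ‖ < 1) : ζ ∈ L := by
  refine mem_of_isolated_root q L (X ^ N - 1) x ζ (by simp [hζ]) hx ?_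
  intro r' hr' hlt
  refine eq_of_pow_eq_one_of_norm_sub_lt q hN ?_ hζ hlt
  have : r' ^ N - 1 = 0 := by simpa using hr'
  exact sub_eq_zero.1 this

end Krasner

/-! ### The residue field of a subfield of `Ω`, by congruences -/

section Residue

variable {E : Type} [Field E] [Algebra E (PadicAlgCl q)]

theorem nrm_zero : nrm q (0 : E) = 0 := by simp [nrm]

theorem nrm_one : nrm q (1 : E) = 1 := by simp [nrm]

theorem nrm_mul (x y : E) : nrm q (x * y) = nrm q x * nrm q y := by simp [nrm]

theorem nrm_pow (x : E) (n : ℕ) : nrm q (x ^ n) = nrm q x ^ n := by simp [nrm]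

theorem nrm_inv (x : E) : nrm q x⁻¹ = (nrm q x)⁻¹ := by simp [nrm]

theorem nrm_div (x y : E) : nrm q (x / y) = nrm q x / nrm q y := by simp [nrm]

theorem nrm_neg (x : E) : nrm q (-x) = nrm q x := by simp [nrm]

theorem nrm_nonneg (x : E) : 0 ≤ nrm q x := norm_nonneg _

theorem nrm_eq_zero_iff (x : E) : nrm q x = 0 ↔ x = 0 := by simp [nrm]

theorem nrm_sub_rev (x y : E) : nrm q (x - y) = nrm q (y - x) := by
  simp only [nrm, map_sub]
  exact norm_sub_rev _ _

theorem nrm_add_le_max (x y : E) : nrm q (x + y) ≤ max (nrm q x) (nrm q y) := by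
  simp only [nrm, map_add]
  exact IsUltrametricDist.norm_add_le_max _ _

theorem nrm_sub_le_max (x y : E) : nrm q (x - y) ≤ max (nrm q x) (nrm q y) := by
  rw [sub_eq_add_neg]
  exact (nrm_add_le_max q x (-y)).trans (by rw [nrm_neg])

/-- Congruence modulo the maximal ideal is transitive. -/
theorem nrm_sub_lt_one_trans {x y z : E} (h₁ : nrm q (x - y) < 1) (h₂ : nrm q (y - z) < 1) :
    nrm q (x - z) < 1 := by
  have h : x - z = (x - y) + (y - z) := by ring
  rw [h]
  exact lt_of_le_of_lt (nrm_add_le_max q _ _) (max_lt h₁ h₂)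

/-- Congruent integral elements have congruent powers. -/
theorem nrm_pow_sub_pow_lt_one {x y : E} (hx : nrm q x ≤ 1) (hy : nrm q y ≤ 1)
    (h : nrm q (x - y) < 1) (n : ℕ) : nrm q (x ^ n - y ^ n) < 1 := by
  induction n with
  | zero => simp [nrm_zero q]
  | succ n ih =>
    have e : x ^ (n + 1) - y ^ (n + 1) = (x ^ n - y ^ n) * x + y ^ n * (x - y) := by ring
    rw [e]
    refine lt_of_le_of_lt (nrm_add_le_max q _ _) (max_lt ?_ ?_)
    · rw [nrm_mul]
      calc nrm q (x ^ n - y ^ n) * nrm q x ≤ nrm q (x ^ n - y ^ n) * 1 :=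
            mul_le_mul_of_nonneg_left hx (nrm_nonneg q _)
        _ < 1 := by rw [mul_one]; exact ih
    · rw [nrm_mul, nrm_pow]
      calc nrm q y ^ n * nrm q (x - y) ≤ 1 * nrm q (x - y) :=
            mul_le_mul_of_nonneg_right (pow_le_one₀ (nrm_nonneg q _) hy) (nrm_nonneg q _)
        _ < 1 := by rw [one_mul]; exact h

theorem nrm_natCast_prime_lt_one : nrm q ((q : ℕ) : E) < 1 := by
  have h1 : algebraMap E (PadicAlgCl q) ((q : ℕ) : E) =
      algebraMap ℚ_[q] (PadicAlgCl q) ((q : ℕ) : ℚ_[q]) := by simp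
  rw [nrm, h1, PadicAlgCl.norm_extends, Padic.norm_p]
  exact inv_lt_one_of_one_lt₀ (by exact_mod_cast (Fact.out : q.Prime).one_lt)

variable (E)

theorem isUnit_intRing_iff (x : intRing q E) : IsUnit x ↔ nrm q (x : E) = 1 := by
  have hx1 : nrm q (x : E) ≤ 1 := (mem_intRing_iff q E x).1 x.2
  constructor
  · intro hu
    obtain ⟨y, hy⟩ := isUnit_iff_exists_inv.1 hu
    have hy1 : nrm q (y : E) ≤ 1 := (mem_intRing_iff q E y).1 y.2
    have h1 : nrm q (x : E) * nrm q (y : E) = 1 := by
      rw [← nrm_mul, ← nrm_one q (E := E)]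
      exact congrArg (nrm q) (congrArg Subtype.val hy)
    have h0 := nrm_nonneg q (x : E)
    have h0' := nrm_nonneg q (y : E)
    nlinarith
  · intro h
    have hx0 : (x : E) ≠ 0 := by
      intro h0
      rw [h0, nrm_zero] at h
      exact zero_ne_one h
    have hinv : (x : E)⁻¹ ∈ intRing q E := by
      rw [mem_intRing_iff, nrm_inv, h, inv_one]
    exact IsUnit.of_mul_eq_one ⟨(x : E)⁻¹, hinv⟩ (Subtype.ext (mul_inv_cancel₀ hx0))

theorem mem_maximalIdeal_intRing_iff (x : intRing q E) :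
    x ∈ IsLocalRing.maximalIdeal (intRing q E) ↔ nrm q (x : E) < 1 := by
  have hx1 : nrm q (x : E) ≤ 1 := (mem_intRing_iff q E x).1 x.2
  rw [IsLocalRing.mem_maximalIdeal, mem_nonunits_iff, isUnit_intRing_iff]
  constructor
  · intro h
    exact lt_of_le_of_ne hx1 h
  · intro h
    exact h.ne

theorem residue_eq_zero_iff (x : intRing q E) :
    IsLocalRing.residue (intRing q E) x = 0 ↔ nrm q (x : E) < 1 := by
  rw [IsLocalRing.residue_eq_zero_iff, mem_maximalIdeal_intRing_iff]

theorem residue_eq_iff (x y : intRing q E) :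
    IsLocalRing.residue (intRing q E) x = IsLocalRing.residue (intRing q E) y ↔
      nrm q ((x : E) - (y : E)) < 1 := by
  rw [← sub_eq_zero, ← map_sub, residue_eq_zero_iff]
  rfl

/-- The residue field has characteristic `q`. -/
theorem charP_residueField : CharP (IsLocalRing.ResidueField (intRing q E)) q := by
  rw [CharP.charP_iff_prime_eq_zero (Fact.out : q.Prime)]
  have h1 : ((q : ℕ) : E) ∈ intRing q E := by
    rw [mem_intRing_iff]
    exact (nrm_natCast_prime_lt_one q).le
  have h2 : ((q : ℕ) : IsLocalRing.ResidueField (intRing q E)) =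
      IsLocalRing.residue (intRing q E) ⟨((q : ℕ) : E), h1⟩ := by
    rw [← map_natCast (IsLocalRing.residue (intRing q E))]
    rfl
  rw [h2, residue_eq_zero_iff]
  exact nrm_natCast_prime_lt_one q

end Residue

/-! ### Finite residue fields -/

section FiniteRes

variable (E : Type) [Field E] [Algebra ℚ_[q] E] [Algebra E (PadicAlgCl q)]
  [IsScalarTower ℚ_[q] E (PadicAlgCl q)] [FiniteDimensional ℚ_[q] E]

/-- The residue cardinality is a positive power of `q`. -/
theorem exists_resCard_eq_pow : ∃ n : ℕ, 0 < n ∧ resCard q E = q ^ n := by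
  have := leafResFinite q E
  let _ := Fintype.ofFinite (IsLocalRing.ResidueField (intRing q E))
  have := charP_residueField q E
  obtain ⟨n, -, hn⟩ := FiniteField.card (IsLocalRing.ResidueField (intRing q E)) q
  exact ⟨n, n.pos, by rw [resCard, Nat.card_eq_fintype_card, hn]⟩

theorem two_le_resCard : 2 ≤ resCard q E := by
  obtain ⟨n, hn, h⟩ := exists_resCard_eq_pow q E
  rw [h]
  calc 2 ≤ q := (Fact.out : q.Prime).two_le
    _ = q ^ 1 := (pow_one q).symm
    _ ≤ q ^ n := Nat.pow_le_pow_right (Fact.out : q.Prime).pos hn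

theorem not_dvd_resCard_sub_one : ¬ q ∣ resCard q E - 1 := by
  obtain ⟨n, hn, h⟩ := exists_resCard_eq_pow q E
  have h2 := two_le_resCard q E
  intro hdvd
  have h1 : q ∣ resCard q E := by
    rw [h]
    exact dvd_pow_self q hn.ne'
  have h3 : q ∣ resCard q E - (resCard q E - 1) := Nat.dvd_sub h1 hdvd
  have h4 : resCard q E - (resCard q E - 1) = 1 := by omega
  rw [h4] at h3
  exact (Fact.out : q.Prime).one_lt.ne' (Nat.dvd_one.1 h3)

/-- `a ^ #k ≡ a` for integral `a`. -/
theorem nrm_pow_resCard_sub_lt_one (a : E) (ha : nrm q a ≤ 1) :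
    nrm q (a ^ resCard q E - a) < 1 := by
  have := leafResFinite q E
  let _ := Fintype.ofFinite (IsLocalRing.ResidueField (intRing q E))
  set a' : intRing q E := ⟨a, (mem_intRing_iff q E a).2 ha⟩ with ha'
  have h1 := FiniteField.pow_card (IsLocalRing.residue (intRing q E) a')
  rw [← Nat.card_eq_fintype_card, ← map_pow, residue_eq_iff] at h1
  exact h1

/-- `a ^ (#k - 1) ≡ 1` for units `a`. -/
theorem nrm_pow_resCard_sub_one_sub_one_lt_one (a : E) (ha : nrm q a = 1) :
    nrm q (a ^ (resCard q E - 1) - 1) < 1 := by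
  have := leafResFinite q E
  let _ := Fintype.ofFinite (IsLocalRing.ResidueField (intRing q E))
  set a' : intRing q E := ⟨a, (mem_intRing_iff q E a).2 ha.le⟩ with ha'
  have hne : IsLocalRing.residue (intRing q E) a' ≠ 0 := by
    rw [Ne, residue_eq_zero_iff]
    show ¬ nrm q a < 1
    rw [ha]
    exact lt_irrefl 1
  have h1 := FiniteField.pow_card_sub_one_eq_one (IsLocalRing.residue (intRing q E) a') hne
  rw [← Nat.card_eq_fintype_card, ← map_pow, ← map_one (IsLocalRing.residue (intRing q E)),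
    residue_eq_iff] at h1
  exact h1

end FiniteRes

/-! ### Teichmüller representatives -/

section Teich

variable (F : Type) [Field F] [Algebra ℚ_[q] F] [Algebra F (PadicAlgCl q)]
  [IsScalarTower ℚ_[q] F (PadicAlgCl q)] [FiniteDimensional ℚ_[q] F]

variable {F} in
/-- **Teichmüller representatives**: every unit of a finite extension `L` of `F` inside `Ω` is
congruent to a root of unity of order dividing `#k_L - 1` lying in `L`. -/
theorem exists_teichmuller (L : IntermediateField F (PadicAlgCl q)) [FiniteDimensional F L]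
    (x : L) (hx : nrm q x = 1) :
    ∃ ζ : L, ζ ^ (resCard q ↥L - 1) = 1 ∧ nrm q (x - ζ) < 1 := by
  have h1 := nrm_pow_resCard_sub_one_sub_one_lt_one q ↥L x hx
  set N := resCard q ↥L - 1 with hN
  have hN0 : N ≠ 0 := by
    have := two_le_resCard q ↥L
    omega
  have hmonic : (X ^ N - C (1 : PadicAlgCl q)).Monic := monic_X_pow_sub_C 1 hN0
  have heval : ‖(X ^ N - C (1 : PadicAlgCl q)).eval (x : PadicAlgCl q)‖ < 1 := by
    have h2 : (X ^ N - C (1 : PadicAlgCl q)).eval (x : PadicAlgCl q) =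
        ((x ^ N - 1 : L) : PadicAlgCl q) := by
      simp
    rw [h2]
    exact h1
  obtain ⟨ζ, hroot, hlt⟩ := exists_root_norm_sub_lt q _ hmonic (x : PadicAlgCl q) heval
  have hζ : ζ ^ N = 1 := by
    have h3 : (X ^ N - C (1 : PadicAlgCl q)).eval ζ = 0 := hroot
    simp only [eval_sub, eval_pow, eval_X, eval_C] at h3
    exact sub_eq_zero.1 h3
  have hζL : ζ ∈ L :=
    mem_of_pow_eq_one_of_norm_sub_lt q L (not_dvd_resCard_sub_one q ↥L) x ζ hζ hlt
  refine ⟨⟨ζ, hζL⟩, Subtype.ext ?_, hlt⟩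
  simpa using hζ

variable {F} in
/-- A root of unity `θ ∈ L` whose powers represent all nonzero residue classes of `L`. -/
theorem exists_generator (L : IntermediateField F (PadicAlgCl q)) [FiniteDimensional F L] :
    ∃ θ : L, θ ^ (resCard q ↥L - 1) = 1 ∧ nrm q θ = 1 ∧
      ∀ x : L, nrm q x = 1 → ∃ j : ℕ, nrm q (x - θ ^ j) < 1 := by
  have := leafResFinite q ↥L
  let _ := Fintype.ofFinite (IsLocalRing.ResidueField (intRing q ↥L))
  obtain ⟨g, hg⟩ := IsCyclic.exists_generator (α := (IsLocalRing.ResidueField (intRing q ↥L))ˣ)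
  obtain ⟨x₀, hx₀⟩ := IsLocalRing.residue_surjective
    (g : IsLocalRing.ResidueField (intRing q ↥L))
  have hx₀1 : nrm q (x₀ : L) = 1 := by
    have h1 : nrm q (x₀ : L) ≤ 1 := (mem_intRing_iff q ↥L x₀).1 x₀.2
    refine le_antisymm h1 (not_lt.1 fun hlt => ?_)
    have h2 := (residue_eq_zero_iff q ↥L x₀).2 hlt
    rw [hx₀] at h2
    exact g.ne_zero h2
  obtain ⟨θ, hθ, hθx⟩ := exists_teichmuller q L (x₀ : L) hx₀1
  have hN0 : resCard q ↥L - 1 ≠ 0 := by
    have := two_le_resCard q ↥L
    omega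
  have hθ1 : nrm q θ = 1 := by
    have h : nrm q θ ^ (resCard q ↥L - 1) = 1 := by rw [← nrm_pow, hθ, nrm_one]
    exact (pow_eq_one_iff_of_nonneg (nrm_nonneg q θ) hN0).1 h
  set θ' : intRing q ↥L := ⟨θ, (mem_intRing_iff q ↥L θ).2 hθ1.le⟩ with hθ'
  have hres : IsLocalRing.residue (intRing q ↥L) θ' = (g : IsLocalRing.ResidueField _) := by
    rw [← hx₀, residue_eq_iff, nrm_sub_rev]
    exact hθx
  refine ⟨θ, hθ, hθ1, fun x hx => ?_⟩
  set x' : intRing q ↥L := ⟨x, (mem_intRing_iff q ↥L x).2 hx.le⟩ with hx'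
  have hne : IsLocalRing.residue (intRing q ↥L) x' ≠ 0 := by
    rw [Ne, residue_eq_zero_iff]
    show ¬ nrm q x < 1
    rw [hx]
    exact lt_irrefl 1
  obtain ⟨j, hj⟩ := (mem_powers_iff_mem_zpowers.2 (hg (Units.mk0 _ hne)))
  refine ⟨j, ?_⟩
  have h3 : IsLocalRing.residue (intRing q ↥L) x' = IsLocalRing.residue (intRing q ↥L) (θ' ^ j) := by
    rw [map_pow, hres]
    have := congrArg (fun u : (IsLocalRing.ResidueField (intRing q ↥L))ˣ =>
      (u : IsLocalRing.ResidueField (intRing q ↥L))) hj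
    simpa using this.symm
  rw [residue_eq_iff] at h3
  exact h3

end Teich

/-! ### The residue field of the base inside the residue field of an extension -/

section Base

variable (F : Type) [Field F] [Algebra ℚ_[q] F] [Algebra F (PadicAlgCl q)]
  [IsScalarTower ℚ_[q] F (PadicAlgCl q)] [FiniteDimensional ℚ_[q] F]

omit [Algebra ℚ_[q] F] [IsScalarTower ℚ_[q] F (PadicAlgCl q)] [FiniteDimensional ℚ_[q] F] in
variable {F} in
theorem nrm_algebraMap (L : IntermediateField F (PadicAlgCl q)) (a : F) :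
    nrm q (algebraMap F L a) = nrm q a := rfl

variable {F} in
/-- The inclusion of valuation rings. -/
def intRingMap (L : IntermediateField F (PadicAlgCl q)) : intRing q F →+* intRing q ↥L where
  toFun x := ⟨algebraMap F L x, by
    rw [mem_intRing_iff, nrm_algebraMap]
    exact (mem_intRing_iff q F x).1 x.2⟩
  map_one' := Subtype.ext (map_one _)
  map_mul' x y := Subtype.ext (map_mul _ _ _)
  map_zero' := Subtype.ext (map_zero _)
  map_add' x y := Subtype.ext (map_add _ _ _)

variable {F} in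
instance isLocalHom_intRingMap (L : IntermediateField F (PadicAlgCl q)) :
    IsLocalHom (intRingMap q L) where
  map_nonunit x hx := by
    rw [isUnit_intRing_iff] at hx ⊢
    exact hx

variable {F} in
/-- An integral element `y` of `L` with `y ^ #k_F ≡ y` is congruent to an integral element of
`F`. -/
theorem exists_base_approx (L : IntermediateField F (PadicAlgCl q)) [FiniteDimensional F L]
    (y : L) (hy : nrm q y ≤ 1) (h : nrm q (y ^ resCard q F - y) < 1) :
    ∃ a : F, nrm q a ≤ 1 ∧ nrm q (y - algebraMap F L a) < 1 := by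
  classical
  have := leafResFinite q F
  have := leafResFinite q ↥L
  let _ := Fintype.ofFinite (IsLocalRing.ResidueField (intRing q F))
  let _ := Fintype.ofFinite (IsLocalRing.ResidueField (intRing q ↥L))
  set kF := IsLocalRing.ResidueField (intRing q F) with hkF
  set kL := IsLocalRing.ResidueField (intRing q ↥L) with hkL
  set Q := resCard q F with hQ
  have hQ2 : 1 < Q := two_le_resCard q F
  have hQcard : Fintype.card kF = Q := by rw [hQ, resCard, Nat.card_eq_fintype_card]
  set ι : kF →+* kL := IsLocalRing.ResidueField.map (intRingMap q L) with hι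
  have hιinj : Function.Injective ι := ι.injective
  set P : kL[X] := X ^ Q - X with hP
  have hP0 : P ≠ 0 := FiniteField.X_pow_card_sub_X_ne_zero kL hQ2
  have hPdeg : P.natDegree = Q := FiniteField.X_pow_card_sub_X_natDegree_eq kL hQ2
  set S : Finset kL := Finset.univ.image ι with hS
  have hScard : S.card = Q := by
    rw [hS, Finset.card_image_of_injective _ hιinj, Finset.card_univ, hQcard]
  have hSsub : S ⊆ P.roots.toFinset := by
    intro c hc
    obtain ⟨c₀, -, rfl⟩ := Finset.mem_image.1 hc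
    rw [Multiset.mem_toFinset, mem_roots hP0, IsRoot.def, hP]
    simp only [eval_sub, eval_pow, eval_X]
    rw [← map_pow, ← hQcard, FiniteField.pow_card, sub_self]
  have hle : P.roots.toFinset.card ≤ S.card := by
    rw [hScard, ← hPdeg]
    exact (Multiset.toFinset_card_le _).trans (card_roots' P)
  have hEq : S = P.roots.toFinset := Finset.eq_of_subset_of_card_le hSsub hle
  set y' : intRing q ↥L := ⟨y, (mem_intRing_iff q ↥L y).2 hy⟩ with hy'
  have hroot : IsLocalRing.residue (intRing q ↥L) y' ∈ P.roots.toFinset := by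
    rw [Multiset.mem_toFinset, mem_roots hP0, IsRoot.def, hP]
    simp only [eval_sub, eval_pow, eval_X]
    rw [← map_pow, sub_eq_zero, residue_eq_iff]
    exact h
  rw [← hEq] at hroot
  obtain ⟨c₀, -, hc₀⟩ := Finset.mem_image.1 hroot
  obtain ⟨a, rfl⟩ := IsLocalRing.residue_surjective c₀
  refine ⟨(a : F), (mem_intRing_iff q F a).1 a.2, ?_⟩
  have h2 : ι (IsLocalRing.residue (intRing q F) a) =
      IsLocalRing.residue (intRing q ↥L) (intRingMap q L a) :=
    IsLocalRing.ResidueField.map_residue (intRingMap q L) a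
  rw [h2, residue_eq_iff] at hc₀
  rw [nrm_sub_rev]
  exact hc₀

end Base

/-! ### The Frobenius substitution on one element -/

section FrobElt

variable (F : Type) [Field F] [Algebra ℚ_[q] F] [Algebra F (PadicAlgCl q)]
  [IsScalarTower ℚ_[q] F (PadicAlgCl q)] [FiniteDimensional ℚ_[q] F]

variable {F} in
/-- For `L/F` finite Galois and `θ ∈ 𝒪_L` there is `σ ∈ Gal(L/F)` with `σ θ ≡ θ ^ #k_F`. -/
theorem exists_algEquiv_frob (L : IntermediateField F (PadicAlgCl q)) [FiniteDimensional F L]
    [IsGalois F L] (θ : L) (hθ : nrm q θ ≤ 1) :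
    ∃ σ : L ≃ₐ[F] L, nrm q (θ ^ resCard q F - σ θ) < 1 := by
  classical
  have := leafResFinite q ↥L
  let _ := Fintype.ofFinite (IsLocalRing.ResidueField (intRing q ↥L))
  have hchar := charP_residueField q ↥L
  have hexp : ExpChar (IsLocalRing.ResidueField (intRing q ↥L)) q := ExpChar.prime Fact.out
  set kL := IsLocalRing.ResidueField (intRing q ↥L) with hkL
  set res := IsLocalRing.residue (intRing q ↥L) with hres
  set Q := resCard q F with hQ
  obtain ⟨n, -, hQn⟩ := exists_resCard_eq_pow q F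
  let t : (L ≃ₐ[F] L) → intRing q ↥L := fun σ =>
    ⟨σ θ, (mem_intRing_iff q ↥L _).2 (by rw [nrm_algEquiv]; exact hθ)⟩
  set g : (intRing q ↥L)[X] := ∏ σ : L ≃ₐ[F] L, (X - C (t σ)) with hg
  set gbar : kL[X] := g.map res with hgbar
  have hgbar' : gbar = ∏ σ : L ≃ₐ[F] L, (X - C (res (t σ))) := by
    rw [hgbar, hg, Polynomial.map_prod]
    refine Finset.prod_congr rfl fun σ _ => ?_
    rw [Polynomial.map_sub, map_X, map_C]
  -- the polynomial over `L`
  set gL : L[X] := g.map (intRing q ↥L).subtype with hgL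
  have hgL' : gL = ∏ σ : L ≃ₐ[F] L, (X - C (σ θ)) := by
    rw [hgL, hg, Polynomial.map_prod]
    refine Finset.prod_congr rfl fun σ _ => ?_
    rw [Polynomial.map_sub, map_X, map_C]
    rfl
  have hinv : ∀ τ : L ≃ₐ[F] L, gL.map (τ : L →+* L) = gL := by
    intro τ
    rw [hgL', Polynomial.map_prod]
    have h1 : ∀ σ : L ≃ₐ[F] L, (X - C (σ θ)).map (τ : L →+* L) = X - C ((τ * σ) θ) := by
      intro σ
      rw [Polynomial.map_sub, map_X, map_C]
      rfl
    simp only [h1]
    exact Fintype.prod_equiv (Equiv.mulLeft τ) _ _ fun σ => rfl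
  -- coefficients of `gbar` are fixed by `x ↦ x ^ Q`
  have hcoef : ∀ i, gbar.coeff i ^ Q = gbar.coeff i := by
    intro i
    have hfix : ∀ τ : L ≃ₐ[F] L, τ (gL.coeff i) = gL.coeff i := by
      intro τ
      have := congrArg (fun p : L[X] => p.coeff i) (hinv τ)
      simpa [coeff_map] using this
    obtain ⟨a, ha⟩ := (IsGalois.mem_range_algebraMap_iff_fixed (F := F) (E := L) (gL.coeff i)).2 hfix
    have hgi : ((g.coeff i : intRing q ↥L) : L) = gL.coeff i := by
      rw [hgL, coeff_map]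
      rfl
    have ha1 : nrm q a ≤ 1 := by
      rw [← nrm_algebraMap q L a, ha, ← hgi]
      exact (mem_intRing_iff q ↥L _).1 (g.coeff i).2
    have h2 := nrm_pow_resCard_sub_lt_one q F a ha1
    have h3 : nrm q (((g.coeff i : intRing q ↥L) : L) ^ Q - ((g.coeff i : intRing q ↥L) : L)) < 1 := by
      rw [hgi, ← ha, ← map_pow, ← map_sub, nrm_algebraMap]
      exact h2
    rw [hgbar, coeff_map, ← map_pow, residue_eq_iff]
    exact h3
  -- Frobenius
  set Φ : kL →+* kL := iterateFrobenius kL q n with hΦ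
  have hΦx : ∀ x : kL, Φ x = x ^ Q := by
    intro x
    rw [hΦ, iterateFrobenius_def, hQ, hQn]
  have hmap : gbar.map Φ = gbar := by
    ext i
    rw [coeff_map, hΦx, hcoef]
  set θbar : kL := res (t 1) with hθbar
  have hroot : gbar.eval θbar = 0 := by
    rw [hgbar', eval_prod]
    refine Finset.prod_eq_zero (Finset.mem_univ (1 : L ≃ₐ[F] L)) ?_
    rw [eval_sub, eval_X, eval_C, sub_self]
  have hroot' : gbar.eval (θbar ^ Q) = 0 := by
    have h1 : (gbar.map Φ).eval (Φ θbar) = Φ (gbar.eval θbar) := by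
      rw [eval_map, eval₂_hom]
    rw [hmap, hroot, map_zero, hΦx] at h1
    exact h1
  rw [hgbar', eval_prod, Finset.prod_eq_zero_iff] at hroot'
  obtain ⟨σ, -, hσ⟩ := hroot'
  rw [eval_sub, eval_X, eval_C, sub_eq_zero, hθbar, ← map_pow, residue_eq_iff] at hσ
  exact ⟨σ, hσ⟩

end FrobElt

/-! ### Successive approximation -/

section Approx

variable (F : Type) [Field F] [Algebra ℚ_[q] F] [Algebra F (PadicAlgCl q)]
  [IsScalarTower ℚ_[q] F (PadicAlgCl q)] [FiniteDimensional ℚ_[q] F]

variable {F} in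
/-- Intermediate fields of a finite extension are closed in `Ω`. -/
theorem isClosed_image_intermediateField (L : IntermediateField F (PadicAlgCl q))
    [FiniteDimensional F L] (M : IntermediateField F L) :
    IsClosed {y : PadicAlgCl q | ∃ m : L, m ∈ M ∧ (m : PadicAlgCl q) = y} := by
  set W : Submodule ℚ_[q] (PadicAlgCl q) :=
    (M.toSubalgebra.toSubmodule.restrictScalars ℚ_[q]).map
      ((IsScalarTower.toAlgHom ℚ_[q] L (PadicAlgCl q)).toLinearMap) with hW
  have hfin : FiniteDimensional ℚ_[q] W := by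
    rw [hW]
    infer_instance
  have hcl : IsClosed (W : Set (PadicAlgCl q)) := W.closed_of_finiteDimensional
  have hset : {y : PadicAlgCl q | ∃ m : L, m ∈ M ∧ (m : PadicAlgCl q) = y} =
      (W : Set (PadicAlgCl q)) := by
    ext y
    simp only [Set.mem_ofPred_eq, hW, Submodule.map_coe, Set.mem_image]
    rfl
  rw [hset]
  exact hcl

variable {F} in
/-- **Successive approximation.**  Let `π ∈ F` be a uniformiser of `L` and `M` an intermediate
field of `L/F`.  If every integral `y ∈ L` with property `P` is congruent to an element `a` of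
`M` such that `(y - a) / π` has again property `P`, then every such `y` lies in `M`. -/
theorem mem_of_approx (L : IntermediateField F (PadicAlgCl q)) [FiniteDimensional F L]
    (M : IntermediateField F L) (π : F) (hπ0 : π ≠ 0) (hπ1 : nrm q π < 1)
    (hπ : ∀ z : L, nrm q z < 1 → nrm q z ≤ nrm q π) (P : L → Prop)
    (hstep : ∀ y : L, P y → nrm q y ≤ 1 →
      ∃ a : L, a ∈ M ∧ nrm q (y - a) < 1 ∧ P ((y - a) / algebraMap F L π))
    (y : L) (hP : P y) (hy : nrm q y ≤ 1) : y ∈ M := by
  have hπL0 : algebraMap F L π ≠ 0 := by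
    rw [Ne, map_eq_zero_iff _ (algebraMap F L).injective]
    exact hπ0
  have hπpos : 0 < nrm q π := lt_of_le_of_ne (nrm_nonneg q π)
    (fun h => hπ0 ((nrm_eq_zero_iff q π).1 h.symm))
  have key : ∀ J : ℕ, ∀ y : L, P y → nrm q y ≤ 1 →
      ∃ s : L, s ∈ M ∧ nrm q (y - s) ≤ nrm q π ^ J := by
    intro J
    induction J with
    | zero =>
      intro y _ hy
      exact ⟨0, M.zero_mem, by simpa using hy⟩
    | succ J ih =>
      intro y hP hy
      obtain ⟨a, haM, hlt, hP'⟩ := hstep y hP hy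
      have hy' : nrm q ((y - a) / algebraMap F L π) ≤ 1 := by
        rw [nrm_div, nrm_algebraMap]
        exact div_le_one_of_le₀ (hπ _ hlt) (nrm_nonneg q π)
      obtain ⟨s', hs'M, hs'⟩ := ih _ hP' hy'
      refine ⟨a + algebraMap F L π * s',
        M.add_mem haM (M.mul_mem (M.algebraMap_mem π) hs'M), ?_⟩
      have e : y - (a + algebraMap F L π * s') =
          algebraMap F L π * ((y - a) / algebraMap F L π - s') := by
        field_simp
        ring
      rw [e, nrm_mul, nrm_algebraMap, pow_succ']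
      exact mul_le_mul_of_nonneg_left hs' (nrm_nonneg q π)
  have hcl := isClosed_image_intermediateField q L M
  have hmem : (y : PadicAlgCl q) ∈
      closure {y : PadicAlgCl q | ∃ m : L, m ∈ M ∧ (m : PadicAlgCl q) = y} := by
    rw [Metric.mem_closure_iff]
    intro ε hε
    obtain ⟨J, hJ⟩ := exists_pow_lt_of_lt_one hε hπ1
    obtain ⟨s, hsM, hs⟩ := key J y hP hy
    refine ⟨(s : PadicAlgCl q), ⟨s, hsM, rfl⟩, ?_⟩
    rw [dist_eq_norm]
    exact lt_of_le_of_lt hs hJ
  rw [hcl.closure_eq] at hmem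
  obtain ⟨m, hmM, hm⟩ := hmem
  have hmy : m = y := Subtype.ext hm
  exact hmy ▸ hmM

end Approx

end Fermat.Agent.S55.H63
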