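/-
Program C (S55), package C3, leaf V2 (`Fermat.Agent.S55.H66.LeafFrob`), verbatim:
an unramified finite Galois extension of embedded local fields has a unique Frobenius, and it
generates the Galois group.  helper63.
-/
import Fermat.Agent.S55.H63.LocalRes

set_option autoImplicit false

noncomputable section

namespace Fermat.Agent.S55.H63

open IntermediateField Fermat.Agent.S55.H66

variable (q : ℕ) [Fact q.Prime]

section

variable {F : Type} [Field F] [Algebra ℚ_[q] F] [Algebra F (PadicAlgCl q)]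
  [IsScalarTower ℚ_[q] F (PadicAlgCl q)] [FiniteDimensional ℚ_[q] F]

/-- A uniformiser of `F` is a uniformiser of every unramified extension. -/
theorem exists_unif_of_isUnram (L : IntermediateField F (PadicAlgCl q)) (hunr : IsUnram q F L) :
    ∃ π : F, π ≠ 0 ∧ nrm q π < 1 ∧ ∀ z : L, nrm q z < 1 → nrm q z ≤ nrm q π := by
  obtain ⟨π, hπ0, hπ1, hall⟩ := leafUnif q F
  have hpos : 0 < nrm q π := lt_of_le_of_ne (nrm_nonneg q π)
    (fun h => hπ0 ((nrm_eq_zero_iff q π).1 h.symm))
  refine ⟨π, hπ0, hπ1, fun z hz => ?_⟩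
  obtain ⟨y, hy⟩ := hunr z
  by_cases hy0 : y = 0
  · rw [hy, hy0, nrm_zero]
    exact nrm_nonneg q π
  · obtain ⟨n, hn⟩ := hall y hy0
    rw [hy, hn] at hz ⊢
    have hn1 : 1 ≤ n := by
      by_contra hlt
      rw [not_le] at hlt
      have h1 : (1 : ℝ) ≤ nrm q π ^ n := by
        obtain ⟨m, rfl⟩ : ∃ m : ℕ, n = -(m : ℤ) := ⟨(-n).toNat, by omega⟩
        rw [zpow_neg, zpow_natCast]
        exact (one_le_inv₀ (pow_pos hpos m)).2 (pow_le_one₀ hpos.le hπ1.le)
      linarith
    calc nrm q π ^ n ≤ nrm q π ^ (1 : ℤ) := zpow_le_zpow_right_of_le_one₀ hpos hπ1.le hn1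
      _ = nrm q π := zpow_one _

omit [Algebra ℚ_[q] F] [IsScalarTower ℚ_[q] F (PadicAlgCl q)] [FiniteDimensional ℚ_[q] F] in
/-- In an unramified extension, membership in an intermediate field can be tested on integral
elements. -/
theorem mem_of_forall_integral (L : IntermediateField F (PadicAlgCl q)) (hunr : IsUnram q F L)
    (M : IntermediateField F L) (P : L → Prop)
    (hP : ∀ (y : L) (z : F), P y → P (y / algebraMap F L z))
    (h : ∀ y : L, P y → nrm q y ≤ 1 → y ∈ M) (y : L) (hy : P y) : y ∈ M := by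
  by_cases hy0 : y = 0
  · rw [hy0]
    exact zero_mem _
  · obtain ⟨z, hz⟩ := hunr y
    have hnz : nrm q z ≠ 0 := by
      rw [← hz, Ne, nrm_eq_zero_iff]
      exact hy0
    have hz0 : z ≠ 0 := fun h0 => hnz (by rw [h0, nrm_zero])
    have hzL0 : algebraMap F L z ≠ 0 := by
      rw [Ne, map_eq_zero_iff _ (algebraMap F L).injective]
      exact hz0
    have h1 : y / algebraMap F L z ∈ M := by
      refine h _ (hP y z hy) ?_
      rw [nrm_div, nrm_algebraMap, hz, div_self hnz]
    have h2 : y = (y / algebraMap F L z) * algebraMap F L z := by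
      field_simp
    rw [h2]
    exact mul_mem h1 (M.algebraMap_mem z)

end

/-- **Leaf V2 of the C3 spec**: an unramified Galois extension has a unique Frobenius, and it
generates the Galois group. -/
theorem leafFrob : LeafFrob q := by
  intro F _ _ _ _ _ L _ _ hunr
  classical
  obtain ⟨π, hπ0, hπ1, hπ⟩ := exists_unif_of_isUnram q L hunr
  obtain ⟨θ, hθN, hθ1, hθgen⟩ := exists_generator q L
  have hNq : ¬ q ∣ resCard q ↥L - 1 := not_dvd_resCard_sub_one q ↥L
  have hQ0 : resCard q F ≠ 0 := by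
    have := two_le_resCard q F
    omega
  -- a Frobenius element is determined on `θ`
  have hkey : ∀ ψ : L ≃ₐ[F] L, nrm q (θ ^ resCard q F - ψ θ) < 1 → ψ θ = θ ^ resCard q F := by
    intro ψ hψ
    have h1 : ((ψ θ : L) : PadicAlgCl q) ^ (resCard q ↥L - 1) = 1 := by
      have : (ψ θ) ^ (resCard q ↥L - 1) = 1 := by rw [← map_pow, hθN, map_one]
      exact_mod_cast congrArg (fun x : L => (x : PadicAlgCl q)) this
    have h2 : ((θ ^ resCard q F : L) : PadicAlgCl q) ^ (resCard q ↥L - 1) = 1 := by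
      have : (θ ^ resCard q F) ^ (resCard q ↥L - 1) = 1 := by
        rw [← pow_mul, mul_comm, pow_mul, hθN, one_pow]
      exact_mod_cast congrArg (fun x : L => (x : PadicAlgCl q)) this
    exact Subtype.ext (eq_of_pow_eq_one_of_norm_sub_lt q hNq h2 h1 hψ).symm
  obtain ⟨φ, hφ⟩ := exists_algEquiv_frob q L θ hθ1.le
  have hφθ : φ θ = θ ^ resCard q F := hkey φ hφ
  -- `φ` is a Frobenius
  have hfrob : IsFrob q L φ := by
    intro x hx
    rcases lt_or_eq_of_le hx with hlt | heq
    · have h1 : nrm q (φ x) < 1 := by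
        rw [nrm_algEquiv]
        exact hlt
      have h2 : nrm q (x ^ resCard q F) < 1 := by
        rw [nrm_pow]
        exact pow_lt_one₀ (nrm_nonneg q x) hlt hQ0
      exact lt_of_le_of_lt (nrm_sub_le_max q _ _) (max_lt h1 h2)
    · obtain ⟨j, hj⟩ := hθgen x heq
      have e : φ x - x ^ resCard q F =
          φ (x - θ ^ j) + ((θ ^ j) ^ resCard q F - x ^ resCard q F) := by
        rw [map_sub, map_pow, hφθ]
        ring
      rw [e]
      refine lt_of_le_of_lt (nrm_add_le_max q _ _) (max_lt ?_ ?_)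
      · rw [nrm_algEquiv]
        exact hj
      · have hθj : nrm q (θ ^ j) ≤ 1 := by
          rw [nrm_pow, hθ1, one_pow]
        exact nrm_pow_sub_pow_lt_one q hθj hx (by rw [nrm_sub_rev]; exact hj) _
  -- the fixed field of `φ` is `F`
  have hfix : ∀ y : L, φ y = y → y ∈ (⊥ : IntermediateField F L) := by
    refine mem_of_forall_integral q L hunr ⊥ (fun y => φ y = y) ?_ ?_
    · intro y z hy
      show φ (y / algebraMap F L z) = y / algebraMap F L z
      rw [map_div₀, hy, AlgEquiv.commutes]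
    · intro y hy hy1
      refine mem_of_approx q L ⊥ π hπ0 hπ1 hπ (fun y => φ y = y) ?_ y hy hy1
      intro y hy hy1
      have h1 : nrm q (y ^ resCard q F - y) < 1 := by
        have := hfrob y hy1
        rw [hy] at this
        rw [nrm_sub_rev]
        exact this
      obtain ⟨a, -, ha⟩ := exists_base_approx q L y hy1 h1
      refine ⟨algebraMap F L a, (⊥ : IntermediateField F L).algebraMap_mem a, ha, ?_⟩
      show φ ((y - algebraMap F L a) / algebraMap F L π) = (y - algebraMap F L a) / algebraMap F L π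
      rw [map_div₀, map_sub, hy, AlgEquiv.commutes, AlgEquiv.commutes]
  -- `φ` generates
  have hgen : ∀ τ : L ≃ₐ[F] L, τ ∈ Subgroup.zpowers φ := by
    have h1 : IntermediateField.fixedField (Subgroup.zpowers φ) = ⊥ := by
      refine le_antisymm (fun y hy => hfix y ?_) bot_le
      exact (IntermediateField.mem_fixedField_iff _ y).1 hy φ (Subgroup.mem_zpowers φ)
    have h2 := IntermediateField.fixingSubgroup_fixedField (Subgroup.zpowers φ)
    rw [h1, IntermediateField.fixingSubgroup_bot] at h2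
    intro τ
    rw [← h2]
    exact Subgroup.mem_top τ
  refine ⟨φ, hfrob, ?_, hgen⟩
  -- uniqueness
  intro ψ hψ
  have hψθ : ψ θ = θ ^ resCard q F := by
    refine hkey ψ ?_
    have := hψ θ hθ1.le
    rw [nrm_sub_rev]
    exact this
  have hτθ : (ψ⁻¹ * φ) θ = θ := by
    rw [AlgEquiv.mul_apply, hφθ, ← hψθ, AlgEquiv.aut_inv, AlgEquiv.symm_apply_apply]
  have hθM : θ ∈ IntermediateField.fixedField (Subgroup.zpowers (ψ⁻¹ * φ)) := by
    rw [IntermediateField.mem_fixedField_iff]
    intro f hf
    obtain ⟨k, rfl⟩ := Subgroup.mem_zpowers_iff.1 hf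
    have hfix1 : ∀ k : ℕ, ((ψ⁻¹ * φ) ^ k) θ = θ := by
      intro k
      induction k with
      | zero => simp
      | succ k ih => rw [pow_succ, AlgEquiv.mul_apply, hτθ, ih]
    rcases Int.eq_nat_or_neg k with ⟨m, rfl | rfl⟩
    · rw [zpow_natCast]
      exact hfix1 m
    · rw [zpow_neg, zpow_natCast, AlgEquiv.aut_inv]
      conv_lhs => rw [← hfix1 m]
      exact AlgEquiv.symm_apply_apply _ _
  have hall : ∀ y : L, y ∈ IntermediateField.fixedField (Subgroup.zpowers (ψ⁻¹ * φ)) := by
    intro y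
    refine mem_of_forall_integral q L hunr _ (fun _ => True) (fun _ _ _ => trivial) ?_ y trivial
    intro y _ hy1
    refine mem_of_approx q L _ π hπ0 hπ1 hπ (fun _ => True) ?_ y trivial hy1
    intro y _ hy1
    rcases lt_or_eq_of_le hy1 with hlt | heq
    · exact ⟨0, zero_mem _, by simpa using hlt, trivial⟩
    · obtain ⟨j, hj⟩ := hθgen y heq
      exact ⟨θ ^ j, pow_mem hθM j, hj, trivial⟩
  refine AlgEquiv.ext fun y => ?_
  have h := (IntermediateField.mem_fixedField_iff _ y).1 (hall y) (ψ⁻¹ * φ)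
    (Subgroup.mem_zpowers _)
  rw [AlgEquiv.mul_apply, AlgEquiv.aut_inv] at h
  have h2 := congrArg ψ h
  rw [AlgEquiv.apply_symm_apply] at h2
  exact h2.symm

end Fermat.Agent.S55.H63
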