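/-
Program C (S55), package C4 (local duality), leaf (LVL): the dictionary between the levels of the
local level datum `Dloc q` (finite extensions of `ℚ` inside `ℚ̄`, pulled back along
`localGaloisToGlobal q`) and the finite extensions of `ℚ_q` inside `Ω = PadicAlgCl q`.

* `mem_sub_iff`                 : `τ ∈ (Dloc q).sub F ↔ τ` fixes `ι F` pointwise, `ι = padicEmbedding q`;
* `exists_padicEmbedding_near`  : `ι (ℚ̄)` is dense in `Ω` (continuity of roots);
* `exists_mem_adjoin_padicEmbedding` : every `β ∈ Ω` lies in `ℚ_q(ι a)` for some `a ∈ ℚ̄` (Krasner);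
* `localFieldLevelsStatement`   : `H26.LocalFieldLevelsStatement q`, verbatim.

helper63.
-/
import Fermat.Agent.S55.H26.LocalInvPlan
import Fermat.Agent.S55.H43.C0Leaves

set_option autoImplicit false

noncomputable section

namespace Fermat.Agent.S55.H63

open IntermediateField Polynomial Fermat.Agent.S55.H49 Fermat.Agent.S55.H26

/-! ### Generic field theory -/

/-- An automorphism fixing a set pointwise fixes the field generated by it. -/
theorem algEquiv_fix_adjoin {K E : Type*} [Field K] [Field E] [Algebra K E] (σ : E ≃ₐ[K] E)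
    (S : Set E) (h : ∀ s ∈ S, σ s = s) : ∀ x ∈ adjoin K S, σ x = x := by
  intro x hx
  induction hx using IntermediateField.adjoin_induction with
  | mem x hx => exact h x hx
  | algebraMap x => exact σ.commutes x
  | add x y _ _ hx hy => rw [map_add, hx, hy]
  | inv x _ hx => rw [map_inv₀, hx]
  | mul x y _ _ hx hy => rw [map_mul, hx, hy]

/-- An automorphism fixing a primitive element of an intermediate field fixes the field. -/
theorem algEquiv_fix_of_primitive {K E : Type*} [Field K] [Field E] [Algebra K E]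
    (F : IntermediateField K E) (a : F) (ha : K⟮a⟯ = ⊤) (σ : E ≃ₐ[K] E) (h : σ (a : E) = a) :
    ∀ x ∈ F, σ x = x := by
  intro x hx
  have hx' : (⟨x, hx⟩ : F) ∈ K⟮a⟯ := by rw [ha]; exact IntermediateField.mem_top
  have key : ∀ y : F, y ∈ K⟮a⟯ → σ (y : E) = y := by
    intro y hy
    induction hy using IntermediateField.adjoin_induction with
    | mem y hy => rw [Set.mem_singleton_iff.1 hy]; exact h
    | algebraMap r => exact σ.commutes r
    | add y z _ _ hy hz => rw [IntermediateField.coe_add, map_add, hy, hz]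
    | inv y _ hy => rw [IntermediateField.coe_inv, map_inv₀, hy]
    | mul y z _ _ hy hz => rw [IntermediateField.coe_mul, map_mul, hy, hz]
  exact key ⟨x, hx⟩ hx'

/-- A product of real numbers `≥ δ ≥ 0` is at least `δ ^ card`. -/
theorem pow_card_le_multiset_prod_real (m : Multiset ℝ) {δ : ℝ} (hδ : 0 ≤ δ)
    (h : ∀ y ∈ m, δ ≤ y) : δ ^ Multiset.card m ≤ m.prod := by
  induction m using Multiset.induction_on with
  | empty => simp
  | cons a m ih =>
    rw [Multiset.prod_cons, Multiset.card_cons, pow_succ']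
    have h1 : δ ≤ a := h a (Multiset.mem_cons_self a m)
    have h2 : δ ^ Multiset.card m ≤ m.prod := ih fun y hy => h y (Multiset.mem_cons_of_mem hy)
    exact mul_le_mul h1 h2 (pow_nonneg hδ _) (hδ.trans h1)

variable (q : ℕ) [Fact q.Prime]

/-! ### Level subgroups -/

/-- Membership in a local level subgroup: `τ` fixes the image of `F` in `Ω` pointwise. -/
theorem mem_sub_iff (F : IntermediateField ℚ (AlgebraicClosure ℚ)) (τ : GalQ q) :
    τ ∈ (Dloc q).sub F ↔ ∀ x ∈ F, τ (padicEmbedding q x) = padicEmbedding q x := by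
  show localGaloisToGlobal q τ ∈ F.fixingSubgroup ↔ _
  rw [IntermediateField.mem_fixingSubgroup_iff]
  constructor
  · intro h x hx
    rw [← padicEmbedding_localGaloisToGlobal, h x hx]
  · intro h x hx
    have hinj : Function.Injective (padicEmbedding q) := (padicEmbedding q).toRingHom.injective
    apply hinj
    rw [padicEmbedding_localGaloisToGlobal, h x hx]

/-! ### Density of `ℚ̄` in `Ω` and Krasner -/

/-- If a monic polynomial over `Ω` has a small value at `x`, some root is close to `x`. -/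
theorem exists_root_norm_sub_lt_of_lt_pow (P : (PadicAlgCl q)[X]) (hP : P.Monic)
    (x : PadicAlgCl q) {δ : ℝ} (hδ : 0 < δ) (hx : ‖P.eval x‖ < δ ^ P.natDegree) :
    ∃ r : PadicAlgCl q, P.IsRoot r ∧ ‖x - r‖ < δ := by
  by_contra hcon
  push Not at hcon
  have hP0 : P ≠ 0 := hP.ne_zero
  have hs := IsAlgClosed.splits P
  have h1 := hs.eval_eq_prod_roots_of_monic hP x
  have h2 : δ ^ P.natDegree ≤ ((P.roots.map (x - ·)).map (fun y => ‖y‖)).prod := by
    have hc : Multiset.card ((P.roots.map (x - ·)).map (fun y => ‖y‖)) = P.natDegree := by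
      rw [Multiset.card_map, Multiset.card_map, hs.natDegree_eq_card_roots]
    rw [← hc]
    refine pow_card_le_multiset_prod_real _ hδ.le ?_
    intro y hy
    rw [Multiset.mem_map] at hy
    obtain ⟨z, hz, rfl⟩ := hy
    rw [Multiset.mem_map] at hz
    obtain ⟨r, hr, rfl⟩ := hz
    exact hcon r ((mem_roots hP0).1 hr)
  have h3 : ‖(P.roots.map (x - ·)).prod‖ = ((P.roots.map (x - ·)).map (fun y => ‖y‖)).prod :=
    map_multiset_prod (normHom : PadicAlgCl q →*₀ ℝ) _
  rw [h1, h3] at hx
  linarith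

/-- **Density of `ℚ̄` in `Ω`.**  Every element of `Ω = PadicAlgCl q` is a limit of images of
algebraic numbers. -/
theorem exists_padicEmbedding_near (β : PadicAlgCl q) {δ : ℝ} (hδ : 0 < δ) :
    ∃ a : AlgebraicClosure ℚ, ‖β - padicEmbedding q a‖ < δ := by
  have hint : IsIntegral ℚ_[q] β := Algebra.IsIntegral.isIntegral β
  have hgm : (minpoly ℚ_[q] β).Monic := minpoly.monic hint
  have h0 : aeval β (minpoly ℚ_[q] β) = 0 := minpoly.aeval ℚ_[q] β
  generalize minpoly ℚ_[q] β = g at hgm h0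
  obtain ⟨n, hn⟩ : ∃ n : ℕ, n = g.natDegree := ⟨_, rfl⟩
  have hsum : g = X ^ n + ∑ i ∈ Finset.range n, C (g.coeff i) * X ^ i := by
    rw [hn]
    exact hgm.as_sum
  obtain ⟨M, hM⟩ : ∃ M : ℝ, M = max 1 ‖β‖ ^ n := ⟨_, rfl⟩
  have hM1 : 1 ≤ M := by
    rw [hM]
    exact one_le_pow₀ (le_max_left _ _)
  have hMpos : 0 < M := lt_of_lt_of_le one_pos hM1
  have hε : 0 < δ ^ n / (2 * M) := by positivity
  choose r hr using fun i : ℕ => Padic.rat_dense q (g.coeff i) hε
  obtain ⟨s, hs⟩ : ∃ s : ℚ[X], s = ∑ i ∈ Finset.range n, C (r i) * X ^ i := ⟨_, rfl⟩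
  have hdeg : s.degree < n := by
    rw [hs]
    refine lt_of_le_of_lt (Polynomial.degree_sum_le _ _) ?_
    refine (Finset.sup_lt_iff (WithBot.bot_lt_coe n)).2 fun i hi => ?_
    exact lt_of_le_of_lt (degree_C_mul_X_pow_le i (r i))
      (WithBot.coe_lt_coe.2 (Finset.mem_range.1 hi))
  obtain ⟨h, hh⟩ : ∃ h : ℚ[X], h = X ^ n + s := ⟨_, rfl⟩
  have hmon : h.Monic := by
    rw [hh]
    exact monic_X_pow_add hdeg
  have hnat : h.natDegree = n := by
    rw [hh, natDegree_add_eq_left_of_degree_lt (by rw [degree_X_pow]; exact hdeg),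
      natDegree_X_pow]
  obtain ⟨P, hP⟩ : ∃ P : (PadicAlgCl q)[X], P = h.map (algebraMap ℚ (PadicAlgCl q)) :=
    ⟨_, rfl⟩
  have hPm : P.Monic := by
    rw [hP]
    exact hmon.map _
  have hPn : P.natDegree = n := by rw [hP, hmon.natDegree_map]; exact hnat
  have e1 : P.eval β = β ^ n + ∑ i ∈ Finset.range n,
      algebraMap ℚ_[q] (PadicAlgCl q) (r i : ℚ_[q]) * β ^ i := by
    rw [hP, hh, hs]
    simp [eval_finsetSum, Polynomial.map_sum]
  have e2 : (0 : PadicAlgCl q) = β ^ n + ∑ i ∈ Finset.range n,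
      algebraMap ℚ_[q] (PadicAlgCl q) (g.coeff i) * β ^ i := by
    rw [← h0]
    conv_lhs => rw [hsum]
    simp [map_sum]
  have hval : P.eval β = ∑ i ∈ Finset.range n,
      algebraMap ℚ_[q] (PadicAlgCl q) ((r i : ℚ_[q]) - g.coeff i) * β ^ i := by
    calc P.eval β = (β ^ n + ∑ i ∈ Finset.range n,
          algebraMap ℚ_[q] (PadicAlgCl q) (r i : ℚ_[q]) * β ^ i) - (β ^ n + ∑ i ∈ Finset.range n,
          algebraMap ℚ_[q] (PadicAlgCl q) (g.coeff i) * β ^ i) := by rw [← e1, ← e2, sub_zero]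
      _ = _ := by
        rw [add_sub_add_left_eq_sub, ← Finset.sum_sub_distrib]
        refine Finset.sum_congr rfl fun i _ => ?_
        rw [map_sub, sub_mul]
  have hbound : ‖P.eval β‖ ≤ δ ^ n / 2 := by
    rw [hval]
    refine IsUltrametricDist.norm_sum_le_of_forall_le_of_nonneg (by positivity) fun i hi => ?_
    rw [norm_mul, norm_pow]
    have h1 : ‖algebraMap ℚ_[q] (PadicAlgCl q) ((r i : ℚ_[q]) - g.coeff i)‖ ≤
        δ ^ n / (2 * M) := by
      rw [PadicAlgCl.norm_extends, norm_sub_rev]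
      exact (hr i).le
    have h2 : ‖β‖ ^ i ≤ M := by
      rw [hM]
      calc ‖β‖ ^ i ≤ max 1 ‖β‖ ^ i := pow_le_pow_left₀ (norm_nonneg _) (le_max_right _ _) i
        _ ≤ max 1 ‖β‖ ^ n := pow_le_pow_right₀ (le_max_left _ _) (Finset.mem_range.1 hi).le
    calc _ ≤ δ ^ n / (2 * M) * M := mul_le_mul h1 h2 (by positivity) hε.le
      _ = δ ^ n / 2 := by field_simp
  obtain ⟨ρ, hρ, hρβ⟩ := exists_root_norm_sub_lt_of_lt_pow q P hPm β hδ (by
    rw [hPn]
    exact lt_of_le_of_lt hbound (by linarith [pow_pos hδ n]))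
  have hsplit : (h.map (algebraMap ℚ (AlgebraicClosure ℚ))).Splits := IsAlgClosed.splits _
  have hroot : ((h.map (algebraMap ℚ (AlgebraicClosure ℚ))).map
      (padicEmbedding q : AlgebraicClosure ℚ →+* PadicAlgCl q)).IsRoot ρ := by
    rw [Polynomial.map_map]
    have hc : (padicEmbedding q : AlgebraicClosure ℚ →+* PadicAlgCl q).comp
        (algebraMap ℚ (AlgebraicClosure ℚ)) = algebraMap ℚ (PadicAlgCl q) :=
      (padicEmbedding q).comp_algebraMap
    rw [hc, ← hP]
    exact hρ
  obtain ⟨a, ha⟩ := hsplit.mem_range_of_isRoot (hmon.map _).ne_zero hroot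
  refine ⟨a, ?_⟩
  have ha' : padicEmbedding q a = ρ := ha
  rw [ha']
  exact hρβ

/-- **Krasner.**  Every element of `Ω` lies in the field generated over `ℚ_q` by the image of an
algebraic number. -/
theorem exists_mem_adjoin_padicEmbedding (β : PadicAlgCl q) :
    ∃ a : AlgebraicClosure ℚ, β ∈ ℚ_[q]⟮padicEmbedding q a⟯ := by
  classical
  have hint : IsIntegral ℚ_[q] β := Algebra.IsIntegral.isIntegral β
  let S : Finset (PadicAlgCl q) :=
    ((minpoly ℚ_[q] β).aroots (PadicAlgCl q)).toFinset.erase β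
  obtain ⟨δ, hδ, hδS⟩ : ∃ δ : ℝ, 0 < δ ∧ ∀ x' ∈ S, δ ≤ ‖β - x'‖ := by
    by_cases hS : S.Nonempty
    · obtain ⟨x0, hx0, hmin⟩ := S.exists_min_image (fun x' => ‖β - x'‖) hS
      refine ⟨‖β - x0‖, ?_, fun x' hx' => hmin x' hx'⟩
      rw [norm_pos_iff, sub_ne_zero]
      exact (Finset.ne_of_mem_erase hx0).symm
    · exact ⟨1, one_pos, fun x' hx' => absurd ⟨x', hx'⟩ hS⟩
  obtain ⟨a, ha⟩ := exists_padicEmbedding_near q β hδ
  refine ⟨a, IsKrasner.krasner ?_ ?_ ?_ ?_⟩
  · exact (minpoly.irreducible hint).separable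
  · exact IsAlgClosed.splits _
  · exact Algebra.IsIntegral.isIntegral _
  · intro x' hx' hne
    have hx'S : x' ∈ S := by
      rw [Finset.mem_erase, Multiset.mem_toFinset, mem_aroots]
      refine ⟨hne.symm, minpoly.ne_zero hint, ?_⟩
      rw [show minpoly ℚ_[q] β = minpoly ℚ_[q] x' from hx']
      exact minpoly.aeval _ _
    exact lt_of_lt_of_le ha (hδS x' hx'S)

/-! ### The three parts of (LVL) -/

/-- (a) Every local level subgroup contains the fixing subgroup of a finite Galois extension of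
`ℚ_q`. -/
theorem exists_galois_fixingSubgroup_le_sub (F : IntermediateField ℚ (AlgebraicClosure ℚ))
    (hF : FiniteDimensional ℚ F) :
    ∃ L : IntermediateField ℚ_[q] (PadicAlgCl q), FiniteDimensional ℚ_[q] L ∧
      IsGalois ℚ_[q] L ∧ L.fixingSubgroup ≤ (Dloc q).sub F := by
  obtain ⟨a, ha⟩ := Field.exists_primitive_element ℚ F
  set b : PadicAlgCl q := padicEmbedding q (a : AlgebraicClosure ℚ) with hb
  have hbint : IsIntegral ℚ_[q] b := Algebra.IsIntegral.isIntegral b
  have hfd : FiniteDimensional ℚ_[q] ℚ_[q]⟮b⟯ := adjoin.finiteDimensional hbint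
  have hle : ℚ_[q]⟮b⟯ ≤ normalClosure ℚ_[q] ℚ_[q]⟮b⟯ (PadicAlgCl q) :=
    IntermediateField.le_normalClosure _
  refine ⟨normalClosure ℚ_[q] ℚ_[q]⟮b⟯ (PadicAlgCl q), inferInstance, ⟨⟩, ?_⟩
  intro τ hτ
  have hτb : τ b = b :=
    (IntermediateField.mem_fixingSubgroup_iff _ _).1 hτ b (hle (mem_adjoin_simple_self _ b))
  show localGaloisToGlobal q τ ∈ F.fixingSubgroup
  rw [IntermediateField.mem_fixingSubgroup_iff]
  refine algEquiv_fix_of_primitive F a ha (localGaloisToGlobal q τ) ?_
  have hinj : Function.Injective (padicEmbedding q) := (padicEmbedding q).toRingHom.injective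
  apply hinj
  rw [padicEmbedding_localGaloisToGlobal]
  exact hτb

/-- (b) The fixing subgroup of a finite extension of `ℚ_q` contains a local level subgroup (of a
level with normal fixing subgroup). -/
theorem exists_sub_le_fixingSubgroup (L : IntermediateField ℚ_[q] (PadicAlgCl q))
    (hL : FiniteDimensional ℚ_[q] L) :
    ∃ F : IntermediateField ℚ (AlgebraicClosure ℚ), (Dloc q).Lev F ∧
      (F.fixingSubgroup).Normal ∧ (Dloc q).sub F ≤ L.fixingSubgroup := by
  obtain ⟨α, hα⟩ := Field.exists_primitive_element ℚ_[q] L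
  obtain ⟨a, ha⟩ := exists_mem_adjoin_padicEmbedding q (α : PadicAlgCl q)
  have hafd : FiniteDimensional ℚ ℚ⟮a⟯ :=
    adjoin.finiteDimensional ((AlgebraicClosure.isAlgebraic ℚ).isAlgebraic a).isIntegral
  obtain ⟨F', h1, h2, h3⟩ :=
    Fermat.Agent.S55.H43.hasNormalLevels_localDatum (localGaloisToGlobal q) ℚ⟮a⟯ hafd
  refine ⟨F', h1, h3, ?_⟩
  intro τ hτ
  rw [IntermediateField.mem_fixingSubgroup_iff]
  have hτa : τ (padicEmbedding q a) = padicEmbedding q a :=
    (mem_sub_iff q F' τ).1 hτ a (h2 (mem_adjoin_simple_self ℚ a))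
  have hτα : τ (α : PadicAlgCl q) = α :=
    algEquiv_fix_adjoin τ {padicEmbedding q a}
      (fun s hs => by rw [Set.mem_singleton_iff.1 hs]; exact hτa) _ ha
  exact algEquiv_fix_of_primitive L α hα τ hτα

/-- (c) A subgroup containing a local level subgroup is the fixing subgroup of a finite extension
of `ℚ_q`. -/
theorem exists_fixingSubgroup_eq (H : Subgroup (GalQ q))
    (F : IntermediateField ℚ (AlgebraicClosure ℚ)) (hF : (Dloc q).Lev F)
    (hFH : (Dloc q).sub F ≤ H) :
    ∃ E : IntermediateField ℚ_[q] (PadicAlgCl q), FiniteDimensional ℚ_[q] E ∧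
      E.fixingSubgroup = H := by
  obtain ⟨L, hLfd, hLgal, hLle⟩ := exists_galois_fixingSubgroup_le_sub q F hF
  have hnorm : Normal ℚ_[q] L := hLgal.to_normal
  refine ⟨(IntermediateField.fixedField (H.map (AlgEquiv.restrictNormalHom L))).map
    (IsScalarTower.toAlgHom ℚ_[q] L (PadicAlgCl q)), ?_, ?_⟩
  · exact (IntermediateField.equivMap (IntermediateField.fixedField
      (H.map (AlgEquiv.restrictNormalHom L)))
      (IsScalarTower.toAlgHom ℚ_[q] L (PadicAlgCl q))).toLinearEquiv.finiteDimensional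
  · rw [IntermediateField.map_fixingSubgroup, IntermediateField.fixingSubgroup_fixedField,
      Subgroup.comap_map_eq, IntermediateField.restrictNormalHom_ker]
    exact sup_eq_left.2 (hLle.trans hFH)

/-- **Leaf (LVL)** of C4, verbatim: levels of the local datum versus finite extensions of `ℚ_q`
in `Ω`. -/
theorem localFieldLevelsStatement : LocalFieldLevelsStatement q :=
  ⟨fun F hF => exists_galois_fixingSubgroup_le_sub q F hF,
    fun L hL => exists_sub_le_fixingSubgroup q L hL,
    fun H F hF hFH => exists_fixingSubgroup_eq q H F hF hFH⟩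

end Fermat.Agent.S55.H63

end
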