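/-
Program C (S55), package C9b, leaf (A4): the `p`-primary component of `ℚ/ℤ`.

* generic: for a torsion abelian group `A`, the `p`-primary elements and the elements killed by
  an integer prime to `p` are complementary subgroups; `pPartOf` is the projection onto the
  first one;
* `pPart p : ℚ/ℤ →+ ℚ/ℤ` (`ℚ/ℤ = AddCircle (1 : ℚ) = H66.QZ`): it is the identity on `p`-primary
  elements, kills the elements killed by an integer prime to `p`, and its values are
  `p`-primary;
* `qz_hdiv`: `ℚ/ℤ` is `p`-divisible on `p`-primary elements (the field `hdiv` of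
  `H70.GSArith.Good`).

helper63.
-/
import Fermat.Agent.S55.H47.PPrimary

set_option autoImplicit false

noncomputable section

namespace Fermat.Agent.S55.H63

open Fermat.Agent.S55.H70 Fermat.Agent.S55.H47

/-! ### Generic torsion abelian groups -/

section Generic

theorem isPPrimary_zsmul {p : ℕ} {A : Type*} [AddCommGroup A] {x : A} (hx : IsPPrimary p x)
    (c : ℤ) : IsPPrimary p (c • x) := by
  obtain ⟨k, hk⟩ := hx
  exact ⟨k, by rw [smul_comm, hk, smul_zero]⟩

variable (p : ℕ) (A : Type*) [AddCommGroup A]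

/-- The `p`-primary elements, as a `ℤ`-submodule. -/
def pPrimarySub : Submodule ℤ A where
  carrier := {x | IsPPrimary p x}
  add_mem' := fun hx hy => isPPrimary_add hx hy
  zero_mem' := isPPrimary_zero
  smul_mem' := fun c _ hx => isPPrimary_zsmul hx c

/-- The elements killed by an integer prime to `p`, as a `ℤ`-submodule. -/
def primeToSub : Submodule ℤ A where
  carrier := {x | ∃ m : ℕ, Nat.Coprime m p ∧ m • x = 0}
  add_mem' := by
    rintro x y ⟨m, hm, hx⟩ ⟨n, hn, hy⟩
    refine ⟨m * n, Nat.Coprime.mul_left hm hn, ?_⟩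
    have h1 : (m * n) • x = 0 := by rw [mul_comm, mul_smul, hx, smul_zero]
    have h2 : (m * n) • y = 0 := by rw [mul_smul, hy, smul_zero]
    rw [smul_add, h1, h2, add_zero]
  zero_mem' := ⟨1, Nat.coprime_one_left p, by simp⟩
  smul_mem' := by
    rintro c x ⟨m, hm, hx⟩
    exact ⟨m, hm, by rw [smul_comm, hx, smul_zero]⟩

variable {p A}

theorem mem_pPrimarySub {x : A} : x ∈ pPrimarySub p A ↔ IsPPrimary p x := Iff.rfl

theorem mem_primeToSub {x : A} :
    x ∈ primeToSub p A ↔ ∃ m : ℕ, Nat.Coprime m p ∧ m • x = 0 := Iff.rfl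

/-- In a torsion abelian group the `p`-primary part and the prime-to-`p` part are
complementary. -/
theorem isCompl_pPrimarySub (hp : p.Prime) (htors : ∀ x : A, ∃ n : ℕ, 0 < n ∧ n • x = 0) :
    IsCompl (pPrimarySub p A) (primeToSub p A) := by
  refine IsCompl.of_eq ?_ ?_
  · rw [eq_bot_iff]
    rintro x ⟨hx1, m, hm, hx2⟩
    exact (Submodule.mem_bot ℤ).2 (eq_zero_of_coprime hm hx2 hx1)
  · rw [eq_top_iff]
    intro x _
    obtain ⟨m, x₁, x₂, hm, rfl, h1, h2⟩ := exists_decomp hp (htors x)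
    exact Submodule.add_mem_sup h1 ⟨m, hm, h2⟩

/-- The projection of a torsion abelian group onto its `p`-primary part. -/
def pPartOf (hp : p.Prime) (htors : ∀ x : A, ∃ n : ℕ, 0 < n ∧ n • x = 0) : A →+ A :=
  ((pPrimarySub p A).subtype ∘ₗ
    Submodule.projectionOnto _ _ (isCompl_pPrimarySub hp htors)).toAddMonoidHom

theorem pPartOf_apply (hp : p.Prime) (htors : ∀ x : A, ∃ n : ℕ, 0 < n ∧ n • x = 0) (x : A) :
    pPartOf hp htors x =
      ((Submodule.projectionOnto _ _ (isCompl_pPrimarySub hp htors) x :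
        pPrimarySub p A) : A) := rfl

theorem isPPrimary_pPartOf (hp : p.Prime) (htors : ∀ x : A, ∃ n : ℕ, 0 < n ∧ n • x = 0)
    (x : A) : IsPPrimary p (pPartOf hp htors x) :=
  (Submodule.projectionOnto _ _ (isCompl_pPrimarySub hp htors) x).2

theorem pPartOf_of_isPPrimary (hp : p.Prime) (htors : ∀ x : A, ∃ n : ℕ, 0 < n ∧ n • x = 0)
    {x : A} (hx : IsPPrimary p x) : pPartOf hp htors x = x := by
  rw [pPartOf_apply]
  have h := Submodule.projectionOnto_apply_left (isCompl_pPrimarySub hp htors)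
    (⟨x, hx⟩ : pPrimarySub p A)
  exact congrArg Subtype.val h

theorem pPartOf_eq_zero (hp : p.Prime) (htors : ∀ x : A, ∃ n : ℕ, 0 < n ∧ n • x = 0)
    {m : ℕ} (hm : ¬ p ∣ m) {x : A} (hx : m • x = 0) : pPartOf hp htors x = 0 := by
  rw [pPartOf_apply]
  have hmem : x ∈ primeToSub p A :=
    ⟨m, ((Nat.Prime.coprime_iff_not_dvd hp).2 hm).symm, hx⟩
  rw [(Submodule.projectionOnto_apply_eq_zero_iff (isCompl_pPrimarySub hp htors)).2 hmem]
  rfl

end Generic

/-! ### `ℚ/ℤ` -/

section QZ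

/-- Every element of `ℚ/ℤ` is torsion. -/
theorem qz_torsion (x : AddCircle (1 : ℚ)) : ∃ n : ℕ, 0 < n ∧ n • x = 0 := by
  obtain ⟨r, rfl⟩ := QuotientAddGroup.mk_surjective x
  refine ⟨r.den, r.den_pos, ?_⟩
  have h2 : r.den • r = r.num • (1 : ℚ) := by
    rw [nsmul_eq_mul, zsmul_eq_mul, mul_one, mul_comm]
    exact Rat.mul_den_eq_num r
  show r.den • ((r : ℚ) : AddCircle (1 : ℚ)) = 0
  rw [← AddCircle.coe_nsmul, h2, AddCircle.coe_zsmul, AddCircle.coe_period, smul_zero]

/-- `ℚ/ℤ` is `p`-divisible on `p`-primary elements. -/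
theorem qz_hdiv (p : ℕ) (hp : p ≠ 0) (a : AddCircle (1 : ℚ)) (ha : IsPPrimary p a) :
    ∃ a' : AddCircle (1 : ℚ), IsPPrimary p a' ∧ p • a' = a := by
  obtain ⟨r, rfl⟩ := QuotientAddGroup.mk_surjective a
  obtain ⟨k, hk⟩ := ha
  have h : p • ((r / p : ℚ) : AddCircle (1 : ℚ)) = ((r : ℚ) : AddCircle (1 : ℚ)) := by
    rw [← AddCircle.coe_nsmul, nsmul_eq_mul, mul_div_cancel₀ _ (Nat.cast_ne_zero.2 hp)]
  refine ⟨((r / p : ℚ) : AddCircle (1 : ℚ)), ⟨k + 1, ?_⟩, h⟩
  rw [pow_succ, mul_smul, h]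
  exact hk

variable (p : ℕ) [hp : Fact p.Prime]

/-- The `p`-primary component of `ℚ/ℤ`. -/
def pPart : AddCircle (1 : ℚ) →+ AddCircle (1 : ℚ) := pPartOf hp.out qz_torsion

/-- The values of `pPart p` are `p`-primary. -/
theorem isPPrimary_pPart (a : AddCircle (1 : ℚ)) : IsPPrimary p (pPart p a) :=
  isPPrimary_pPartOf hp.out qz_torsion a

/-- `pPart p` is the identity on `p`-primary elements. -/
theorem pPart_of_isPPrimary {a : AddCircle (1 : ℚ)} (ha : IsPPrimary p a) : pPart p a = a :=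
  pPartOf_of_isPPrimary hp.out qz_torsion ha

/-- `pPart p` kills the elements killed by an integer prime to `p`. -/
theorem pPart_eq_zero {m : ℕ} (hm : ¬ p ∣ m) {a : AddCircle (1 : ℚ)} (ha : m • a = 0) :
    pPart p a = 0 :=
  pPartOf_eq_zero hp.out qz_torsion hm ha

theorem pPart_pPart (a : AddCircle (1 : ℚ)) : pPart p (pPart p a) = pPart p a :=
  pPart_of_isPPrimary p (isPPrimary_pPart p a)

/-- `pPart p ∘ f` agrees with `f` on `p`-primary elements. -/
theorem pPart_map_of_isPPrimary {B : Type*} [AddCommGroup B] (f : B →+ AddCircle (1 : ℚ))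
    {y : B} (hy : IsPPrimary p y) : pPart p (f y) = f y :=
  pPart_of_isPPrimary p (isPPrimary_map hy f)

/-- `pPart p ∘ f` kills the elements killed by an integer prime to `p`. -/
theorem pPart_map_eq_zero {B : Type*} [AddCommGroup B] (f : B →+ AddCircle (1 : ℚ))
    {m : ℕ} (hm : ¬ p ∣ m) {y : B} (hy : m • y = 0) : pPart p (f y) = 0 :=
  pPart_eq_zero p hm (by rw [← map_nsmul, hy, map_zero])

/-- The field `hdiv` of `H70.GSArith.Good` for `T = ℚ/ℤ`. -/
theorem qz_hdiv_prime : ∀ a : AddCircle (1 : ℚ), IsPPrimary p a →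
    ∃ a' : AddCircle (1 : ℚ), IsPPrimary p a' ∧ p • a' = a :=
  fun a ha => qz_hdiv p hp.out.ne_zero a ha

end QZ

end Fermat.Agent.S55.H63

end
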