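/-
Program C (S55), package C8 (reciprocity), arithmetic input B1 + B2 of the route of helper29:
auxiliary cyclotomic characters.

* `exists_prime_orderOf_eq` (B1): for an odd prime `p`, `t ≥ 2` and `s ≥ 1` there is a prime
  `q ≠ p` such that `t` has order exactly `p ^ s` modulo `q`.
* `exists_char_orderOf` (B2): in a finite commutative group, finitely many elements whose orders
  are divisible by a large power of `p` are simultaneously detected by one character of
  `p`-power order.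
* `exists_cyclotomic_char` (B1 + B2): a modulus `m` (squarefree, all prime factors large and
  `≡ 1 mod p`) and a character `ψ` of `(ℤ/m)ˣ` of `p`-power order such that every `t ∈ T` has
  `ψ`-order divisible by `p ^ k`.

Mathlib only.
-/
import Mathlib

namespace Fermat.Agent.S55.H63

open Finset

/-- **B1.**  For an odd prime `p`, an integer `t ≥ 2` and `s ≥ 1`, there is a prime `q ≠ p`
such that the order of `t` modulo `q` is exactly `p ^ s`. -/
theorem exists_prime_orderOf_eq (p : ℕ) (hp : p.Prime) (hp2 : p ≠ 2) (t : ℕ) (ht : 2 ≤ t)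
    (s : ℕ) (hs : 0 < s) :
    ∃ q : ℕ, q.Prime ∧ q ≠ p ∧ orderOf (t : ZMod q) = p ^ s := by
  have : Fact p.Prime := ⟨hp⟩
  obtain ⟨n, rfl⟩ : ∃ n, s = n + 1 := ⟨s - 1, by omega⟩
  set u : ℕ := t ^ p ^ n with hu
  have hu2 : 2 ≤ u := by
    calc 2 ≤ t := ht
      _ = t ^ 1 := (pow_one t).symm
      _ ≤ t ^ p ^ n := Nat.pow_le_pow_right (by omega) (Nat.one_le_pow _ _ hp.pos)
  set Φ : ℕ := ∑ i ∈ range p, u ^ i with hΦ
  -- `Φ * (u - 1) = u ^ p - 1`
  have hgeom : Φ * (u - 1) = u ^ p - 1 := by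
    have h := Nat.geomSum_eq hu2 p
    have hd : (u - 1) ∣ u ^ p - 1 := by
      simpa only [one_pow] using Nat.sub_dvd_pow_sub_pow u 1 p
    rw [hΦ, h, Nat.div_mul_cancel hd]
  -- `Φ > p`
  have hΦp : p < Φ := by
    have h1 : ∀ i ∈ range p, 1 ≤ u ^ i := fun i _ => Nat.one_le_pow _ _ (by omega)
    have h2 : ∑ i ∈ range p, 1 < ∑ i ∈ range p, u ^ i := by
      refine Finset.sum_lt_sum h1 ⟨1, ?_, ?_⟩
      · exact Finset.mem_range.2 hp.one_lt
      · rw [pow_one]; omega
    simpa using h2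
  -- the `p`-adic valuation of `Φ` is at most one
  have hval : ¬ p ^ 2 ∣ Φ := by
    intro h2
    have hpΦ : p ∣ Φ := dvd_trans (dvd_pow_self p two_ne_zero) h2
    -- `u ≡ 1 mod p`
    have hu1 : p ∣ u - 1 := by
      have h3 : p ∣ u ^ p - 1 := hgeom ▸ Dvd.dvd.mul_right hpΦ _
      have h4 : ((u : ZMod p)) ^ p = 1 := by
        have h5 : ((u ^ p - 1 : ℕ) : ZMod p) = 0 := (ZMod.natCast_eq_zero_iff _ _).2 h3
        rw [Nat.cast_sub (Nat.one_le_pow _ _ (by omega))] at h5
        push_cast at h5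
        exact sub_eq_zero.1 h5
      rw [ZMod.pow_card] at h4
      have h6 : ((u - 1 : ℕ) : ZMod p) = 0 := by
        rw [Nat.cast_sub (by omega)]
        simp [h4]
      exact (ZMod.natCast_eq_zero_iff _ _).1 h6
    have hpu : ¬ p ∣ u := by
      intro h
      have : p ∣ 1 := by
        have h7 : p ∣ u - (u - 1) := Nat.dvd_sub h hu1
        have : u - (u - 1) = 1 := by omega
        rwa [this] at h7
      exact hp.one_lt.ne' (Nat.dvd_one.1 this)
    have hodd : Odd p := hp.odd_of_ne_two hp2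
    have hlte := padicValNat.pow_sub_pow (p := p) hodd (x := u) (y := 1) (by omega)
      (by simpa using hu1) hpu (n := p) hp.ne_zero
    simp only [one_pow, padicValNat_self] at hlte
    have hΦ0 : Φ ≠ 0 := by omega
    have hu10 : u - 1 ≠ 0 := by omega
    rw [← hgeom, padicValNat.mul hΦ0 hu10] at hlte
    have h8 : padicValNat p Φ = 1 := by omega
    have h9 : 2 ≤ padicValNat p Φ := (padicValNat_dvd_iff_le hΦ0).1 h2
    omega
  -- a prime factor of `Φ` different from `p`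
  obtain ⟨q, hq, hqΦ, hqp⟩ : ∃ q : ℕ, q.Prime ∧ q ∣ Φ ∧ q ≠ p := by
    by_contra hcon
    push Not at hcon
    have hΦ0 : Φ ≠ 0 := by omega
    have hpow := Nat.eq_prime_pow_of_unique_prime_dvd hΦ0 (fun {d} hd hdΦ => hcon d hd hdΦ)
    set j := Φ.primeFactorsList.length
    rcases Nat.lt_or_ge j 2 with hj | hj
    · interval_cases j
      · rw [pow_zero] at hpow
        have := hp.one_lt
        omega
      · rw [pow_one] at hpow
        omega
    · exact hval (hpow ▸ pow_dvd_pow p hj)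
  refine ⟨q, hq, hqp, ?_⟩
  have : Fact q.Prime := ⟨hq⟩
  have hcast : ((Φ : ℕ) : ZMod q) = 0 := (ZMod.natCast_eq_zero_iff _ _).2 hqΦ
  have hsum : ∑ i ∈ range p, ((u : ZMod q)) ^ i = 0 := by
    rw [← hcast, hΦ]
    push_cast
    rfl
  have hup : ((u : ZMod q)) ^ p = 1 := by
    have := geom_sum_mul (u : ZMod q) p
    rw [hsum, zero_mul] at this
    exact (sub_eq_zero.1 this.symm)
  have hu1 : (u : ZMod q) ≠ 1 := by
    intro h
    rw [h] at hsum
    simp only [one_pow, sum_const, card_range, nsmul_eq_mul, mul_one] at hsum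
    have hqp' : q ∣ p := (ZMod.natCast_eq_zero_iff _ _).1 hsum
    exact hqp ((Nat.prime_dvd_prime_iff_eq hq hp).1 hqp')
  have hcu : ((t : ZMod q)) ^ p ^ n = (u : ZMod q) := by
    rw [hu]
    push_cast
    rfl
  refine orderOf_eq_prime_pow ?_ ?_
  · rw [hcu]
    exact hu1
  · rw [pow_succ, pow_mul, hcu]
    exact hup

/-- The number of characters of a finite commutative group that are trivial at `x`, times the
order of `x`, is the order of the group. -/
theorem card_char_apply_eq_one_mul_orderOf {G : Type*} [CommGroup G] [Finite G] (x : G) :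
    Nat.card {ψ : G →* ℂˣ // ψ x = 1} * orderOf x = Nat.card G := by
  have hne : NeZero (Monoid.exponent G) := ⟨Monoid.exponent_ne_zero_of_finite⟩
  have h1 := CommGroup.card_domRestrictHom_ker (G := G) ℂ (Subgroup.zpowers x)
  have h2 : Nat.card {ψ : G →* ℂˣ // ψ x = 1} =
      Nat.card (MonoidHom.domRestrictHom (Subgroup.zpowers x) ℂˣ).ker := by
    refine Nat.card_congr (Equiv.subtypeEquivRight fun ψ => ?_)
    rw [MonoidHom.mem_ker, MonoidHom.domRestrictHom_apply, MonoidHom.domRestrict_eq_one_iff]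
    constructor
    · intro h y hy
      obtain ⟨j, rfl⟩ := Subgroup.mem_zpowers_iff.1 hy
      rw [map_zpow, h, one_zpow]
    · intro h
      exact h x (Subgroup.mem_zpowers x)
  rw [h2, h1, ← Nat.card_zpowers x]
  exact (Subgroup.card_eq_card_quotient_mul_card_subgroup (Subgroup.zpowers x)).symm

/-- **B2.**  Let `G` be a finite commutative group and `g i` (`i ∈ T`) elements whose orders are
divisible by `p ^ s`, with `#T < p ^ (s + 1 - k)` and `k ≤ s`.  Then there is a character `ψ` of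
`G` of `p`-power order such that `p ^ k` divides the order of `ψ (g i)` for every `i ∈ T`. -/
theorem exists_char_orderOf {G : Type*} [CommGroup G] [Finite G] (p : ℕ) (hp : p.Prime)
    (k s : ℕ) (hk : k ≤ s) {ι : Type*} (T : Finset ι) (g : ι → G)
    (hT : ∀ i ∈ T, p ^ s ∣ orderOf (g i)) (hs : T.card < p ^ (s + 1 - k)) :
    ∃ (ψ : G →* ℂˣ) (A : ℕ), (∀ x, ψ x ^ p ^ A = 1) ∧ ∀ i ∈ T, p ^ k ∣ orderOf (ψ (g i)) := by
  classical
  rcases Nat.eq_zero_or_pos k with rfl | hk0
  · exact ⟨1, 0, fun x => by simp, fun i _ => by simp⟩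
  obtain ⟨k', rfl⟩ : ∃ k', k = k' + 1 := ⟨k - 1, by omega⟩
  have hsk : s + 1 - (k' + 1) = s - k' := by omega
  rw [hsk] at hs
  set n := Nat.card G with hn
  have hn0 : n ≠ 0 := Nat.card_pos.ne'
  set c := ordCompl[p] n with hc
  set a := n.factorization p with ha
  have hnac : p ^ a * c = n := Nat.ordProj_mul_ordCompl_eq_self n p
  have hpc : ¬ p ∣ c := Nat.not_dvd_ordCompl hp hn0
  set h : ι → G := fun i => g i ^ (c * p ^ k') with hh
  -- the order of `h i` is divisible by `p ^ (s - k')`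
  have hord : ∀ i ∈ T, p ^ (s - k') ∣ orderOf (h i) := by
    intro i hi
    have h1 : g i ^ (c * p ^ k' * orderOf (h i)) = 1 := by
      rw [pow_mul]
      exact pow_orderOf_eq_one (h i)
    have h2 : p ^ s ∣ c * p ^ k' * orderOf (h i) :=
      dvd_trans (hT i hi) (orderOf_dvd_of_pow_eq_one h1)
    have hcop : Nat.Coprime (p ^ s) c :=
      Nat.Coprime.pow_left _ ((Nat.Prime.coprime_iff_not_dvd hp).2 hpc)
    rw [mul_assoc] at h2
    have h3 : p ^ s ∣ p ^ k' * orderOf (h i) := hcop.dvd_of_dvd_mul_left h2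
    have h4 : p ^ s = p ^ k' * p ^ (s - k') := by
      rw [← pow_add]
      congr 1
      omega
    rw [h4] at h3
    exact Nat.dvd_of_mul_dvd_mul_left (pow_pos hp.pos _) h3
  -- a character which is nontrivial at all `h i`
  obtain ⟨ψ, hψ⟩ : ∃ ψ : G →* ℂˣ, ∀ i ∈ T, ψ (h i) ≠ 1 := by
    by_contra hcon
    push Not at hcon
    have hcardX : Nat.card (G →* ℂˣ) = n := by
      have hne : NeZero (Monoid.exponent G) := ⟨Monoid.exponent_ne_zero_of_finite⟩
      exact CommGroup.card_monoidHom_of_hasEnoughRootsOfUnity G ℂ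
    have hfin : Finite (G →* ℂˣ) := Nat.finite_of_card_ne_zero (hcardX ▸ hn0)
    have : Fintype (G →* ℂˣ) := Fintype.ofFinite _
    have hcover : (Finset.univ : Finset (G →* ℂˣ)) ⊆
        T.biUnion fun i => Finset.univ.filter fun ψ : G →* ℂˣ => ψ (h i) = 1 := by
      intro ψ _
      obtain ⟨i, hi, hψi⟩ := hcon ψ
      exact Finset.mem_biUnion.2 ⟨i, hi, by simp [hψi]⟩
    have hle : n ≤ ∑ i ∈ T, (Finset.univ.filter fun ψ : G →* ℂˣ => ψ (h i) = 1).card := by
      calc n = (Finset.univ : Finset (G →* ℂˣ)).card := by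
            rw [Finset.card_univ, ← Nat.card_eq_fintype_card, hcardX]
        _ ≤ _ := (Finset.card_le_card hcover).trans Finset.card_biUnion_le
    have hterm : ∀ i ∈ T,
        (Finset.univ.filter fun ψ : G →* ℂˣ => ψ (h i) = 1).card * p ^ (s - k') ≤ n := by
      intro i hi
      have h1 := card_char_apply_eq_one_mul_orderOf (h i)
      have h2 : Nat.card {ψ : G →* ℂˣ // ψ (h i) = 1} =
          (Finset.univ.filter fun ψ : G →* ℂˣ => ψ (h i) = 1).card := by
        rw [Nat.card_eq_fintype_card, Fintype.card_subtype]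
      rw [h2] at h1
      calc _ ≤ (Finset.univ.filter fun ψ : G →* ℂˣ => ψ (h i) = 1).card * orderOf (h i) :=
            Nat.mul_le_mul_left _ (Nat.le_of_dvd (orderOf_pos _) (hord i hi))
        _ = n := h1
    have hfinal : n * p ^ (s - k') ≤ T.card * n := by
      calc n * p ^ (s - k')
          ≤ (∑ i ∈ T, (Finset.univ.filter fun ψ : G →* ℂˣ => ψ (h i) = 1).card) *
              p ^ (s - k') := Nat.mul_le_mul_right _ hle
        _ = ∑ i ∈ T, (Finset.univ.filter fun ψ : G →* ℂˣ => ψ (h i) = 1).card *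
              p ^ (s - k') := Finset.sum_mul _ _ _
        _ ≤ ∑ _i ∈ T, n := Finset.sum_le_sum hterm
        _ = T.card * n := by rw [Finset.sum_const, smul_eq_mul]
    have hlt : T.card * n < n * p ^ (s - k') := by
      rw [mul_comm n]
      exact Nat.mul_lt_mul_of_pos_right hs (Nat.pos_of_ne_zero hn0)
    omega
  refine ⟨ψ ^ c, a, fun x => ?_, fun i hi => ?_⟩
  · rw [MonoidHom.pow_apply, ← pow_mul, mul_comm, hnac, ← map_pow, hn, pow_card_eq_one', map_one]
  · have h1 : (ψ ^ c) (g i) ^ p ^ a = 1 := by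
      rw [MonoidHom.pow_apply, ← pow_mul, mul_comm, hnac, ← map_pow, hn, pow_card_eq_one',
        map_one]
    obtain ⟨j, -, hj⟩ := (Nat.dvd_prime_pow hp).1 (orderOf_dvd_of_pow_eq_one h1)
    rw [hj]
    refine pow_dvd_pow p ?_
    by_contra hjk
    have hjk' : j ≤ k' := by omega
    have h2 : (ψ ^ c) (g i) ^ p ^ k' = 1 := by
      refine orderOf_dvd_iff_pow_eq_one.1 ?_
      rw [hj]
      exact pow_dvd_pow p hjk'
    apply hψ i hi
    rw [← h2, MonoidHom.pow_apply, ← pow_mul, ← map_pow]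

/-- **B1 + B2.**  For an odd prime `p`, an exponent `k`, a finite set `T` of integers `≥ 2` and
a bound `B`, there are a squarefree modulus `m`, all of whose prime factors are `> B` and
`≡ 1 mod p`, and a character `ψ` of `(ℤ/m)ˣ` of `p`-power order, such that every `t ∈ T` is
prime to `m` and the order of `ψ t` is divisible by `p ^ k`. -/
theorem exists_cyclotomic_char (p : ℕ) (hp : p.Prime) (hp2 : p ≠ 2) (k : ℕ) (T : Finset ℕ)
    (hT : ∀ t ∈ T, 2 ≤ t) (B : ℕ) :
    ∃ (m : ℕ) (ψ : (ZMod m)ˣ →* ℂˣ) (A : ℕ), Squarefree m ∧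
      (∀ q : ℕ, q.Prime → q ∣ m → B < q ∧ q ≡ 1 [MOD p]) ∧ (∀ u, ψ u ^ p ^ A = 1) ∧
      ∀ t ∈ T, ∃ h : Nat.Coprime t m, p ^ k ∣ orderOf (ψ (ZMod.unitOfCoprime t h)) := by
  classical
  set B' : ℕ := B + ∑ t ∈ T, t with hB'
  have hBT : ∀ t ∈ T, t ≤ B' := fun t ht =>
    (Finset.single_le_sum (f := fun t : ℕ => t) (fun _ _ => Nat.zero_le _) ht).trans
      (Nat.le_add_left _ _)
  set s : ℕ := k + T.card + B' + 1 with hs
  have hs0 : 0 < s := by omega
  have hps : B' < p ^ s := by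
    have := Nat.lt_pow_self (n := s) hp.one_lt
    omega
  have hcard : T.card < p ^ (s + 1 - k) := by
    have := Nat.lt_pow_self (n := s + 1 - k) hp.one_lt
    omega
  have hex : ∀ t ∈ T, ∃ q : ℕ, q.Prime ∧ q ≠ p ∧ orderOf (t : ZMod q) = p ^ s :=
    fun t ht => exists_prime_orderOf_eq p hp hp2 t (hT t ht) s hs0
  choose! q hq using hex
  -- properties of the primes `q t`
  have hqdvd : ∀ t ∈ T, p ^ s ∣ q t - 1 := by
    intro t ht
    obtain ⟨hqt, -, hord⟩ := hq t ht
    have : Fact (q t).Prime := ⟨hqt⟩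
    have hne : (t : ZMod (q t)) ≠ 0 := by
      intro h0
      have h1 := pow_orderOf_eq_one (t : ZMod (q t))
      rw [hord, h0, zero_pow (pow_pos hp.pos s).ne'] at h1
      exact zero_ne_one h1
    rw [← hord]
    exact ZMod.orderOf_dvd_card_sub_one hne
  have hqgt : ∀ t ∈ T, B' < q t := by
    intro t ht
    have h1 : p ^ s ≤ q t - 1 :=
      Nat.le_of_dvd (Nat.sub_pos_of_lt (hq t ht).1.one_lt) (hqdvd t ht)
    omega
  set Q : Finset ℕ := T.image q with hQ
  have hQprime : ∀ x ∈ Q, x.Prime := by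
    intro x hx
    obtain ⟨t, ht, rfl⟩ := Finset.mem_image.1 hx
    exact (hq t ht).1
  set m : ℕ := ∏ x ∈ Q, x with hm
  have hmpos : 0 < m := Finset.prod_pos fun x hx => (hQprime x hx).pos
  have hmne : NeZero m := ⟨hmpos.ne'⟩
  have hsq : Squarefree m := by
    refine Finset.squarefree_prod_of_pairwise_isCoprime ?_ ?_
    · intro x hx y hy hxy
      exact Nat.coprime_iff_isRelPrime.1
        ((Nat.coprime_primes (hQprime x hx) (hQprime y hy)).2 hxy)
    · intro x hx
      exact (Nat.prime_iff.1 (hQprime x hx)).squarefree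
  have hfac : ∀ q' : ℕ, q'.Prime → q' ∣ m → ∃ t ∈ T, q' = q t := by
    intro q' hq' hdvd
    obtain ⟨x, hx, hq'x⟩ := (Prime.dvd_finsetProd_iff (Nat.prime_iff.1 hq') _).1 hdvd
    obtain ⟨t, ht, rfl⟩ := Finset.mem_image.1 hx
    exact ⟨t, ht, (Nat.prime_dvd_prime_iff_eq hq' (hq t ht).1).1 hq'x⟩
  have hcop : ∀ t ∈ T, Nat.Coprime t m := by
    intro t ht
    refine Nat.Coprime.prod_right fun x hx => ?_
    obtain ⟨t', ht', rfl⟩ := Finset.mem_image.1 hx
    refine Nat.Coprime.symm (((hq t' ht').1.coprime_iff_not_dvd).2 ?_)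
    refine Nat.not_dvd_of_pos_of_lt (by have := hT t ht; omega) ?_
    exact lt_of_le_of_lt (hBT t ht) (hqgt t' ht')
  obtain ⟨g, hg⟩ : ∃ g : ℕ → (ZMod m)ˣ,
      ∀ t (ht : t ∈ T), g t = ZMod.unitOfCoprime t (hcop t ht) :=
    ⟨fun t => if h : t ∈ T then ZMod.unitOfCoprime t (hcop t h) else 1,
      fun t ht => dif_pos ht⟩
  have hgord : ∀ t ∈ T, p ^ s ∣ orderOf (g t) := by
    intro t ht
    have hdvd : q t ∣ m := Finset.dvd_prod_of_mem _ (Finset.mem_image_of_mem q ht)
    have h1 : orderOf (ZMod.unitsMap hdvd (g t)) ∣ orderOf (g t) := orderOf_map_dvd _ _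
    have h2 : ((ZMod.unitsMap hdvd (g t) : (ZMod (q t))ˣ) : ZMod (q t)) = (t : ZMod (q t)) := by
      rw [ZMod.unitsMap_val, hg t ht, ZMod.coe_unitOfCoprime]
      exact ZMod.cast_natCast (R := ZMod (q t)) hdvd t
    rw [← orderOf_units, h2, (hq t ht).2.2] at h1
    exact h1
  obtain ⟨ψ, A, hψA, hψ⟩ := exists_char_orderOf p hp k s (by omega) T g hgord hcard
  refine ⟨m, ψ, A, hsq, ?_, hψA, ?_⟩
  · intro q' hq' hdvd
    obtain ⟨t, ht, rfl⟩ := hfac q' hq' hdvd
    refine ⟨by have := hqgt t ht; omega, ?_⟩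
    have h1 : p ∣ q t - 1 := dvd_trans (dvd_pow_self p hs0.ne') (hqdvd t ht)
    exact ((Nat.modEq_iff_dvd' (hq t ht).1.one_lt.le).2 h1).symm
  · intro t ht
    refine ⟨hcop t ht, ?_⟩
    have := hψ t ht
    rwa [hg t ht] at this

/-- Auxiliary: if `p ^ (k + D)` divides the order of `x`, then `p ^ k` divides the order of
`x ^ f` for every `0 < f ≤ D`. -/
theorem pow_dvd_orderOf_pow {M : Type*} [Monoid M] (p : ℕ) (hp : p.Prime) (k D : ℕ) (x : M)
    (hx0 : 0 < orderOf x) (hx : p ^ (k + D) ∣ orderOf x) (f : ℕ) (hf0 : 0 < f) (hfD : f ≤ D) :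
    p ^ k ∣ orderOf (x ^ f) := by
  rw [orderOf_pow' x hf0.ne']
  set o := orderOf x with ho
  set d := Nat.gcd o f with hd
  have hd0 : 0 < d := Nat.gcd_pos_of_pos_right _ hf0
  have hdo : d ∣ o := Nat.gcd_dvd_left _ _
  have hdf : d ≤ f := Nat.le_of_dvd hf0 (Nat.gcd_dvd_right _ _)
  have hod : o / d * d = o := Nat.div_mul_cancel hdo
  have hq0 : o / d ≠ 0 := by
    intro h
    rw [h, zero_mul] at hod
    omega
  have h1 : k + D ≤ o.factorization p := (hp.pow_dvd_iff_le_factorization hx0.ne').1 hx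
  have h2 : o.factorization p = (o / d).factorization p + d.factorization p := by
    conv_lhs => rw [← hod]
    rw [Nat.factorization_mul hq0 hd0.ne']
    rfl
  have h3 : d.factorization p < D := by
    have h4 : p ^ d.factorization p ∣ d := Nat.ordProj_dvd d p
    have h5 : p ^ d.factorization p ≤ D := (Nat.le_of_dvd hd0 h4).trans (hdf.trans hfD)
    have h6 : D < p ^ D := Nat.lt_pow_self hp.one_lt
    exact (Nat.pow_lt_pow_iff_right hp.one_lt).1 (lt_of_le_of_lt h5 h6)
  exact (hp.pow_dvd_iff_le_factorization hq0).2 (by omega)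

/-- **B1 + B2 with residue degrees.**  As `exists_cyclotomic_char`, but the order of
`ψ (t ^ f)` is divisible by `p ^ k` for all `0 < f ≤ D` (in the application `t ^ f` is the
norm of a place above `t` of residue degree `f ≤ D = [L : ℚ]`). -/
theorem exists_cyclotomic_char_pow (p : ℕ) (hp : p.Prime) (hp2 : p ≠ 2) (k : ℕ) (T : Finset ℕ)
    (hT : ∀ t ∈ T, 2 ≤ t) (B D : ℕ) :
    ∃ (m : ℕ) (ψ : (ZMod m)ˣ →* ℂˣ) (A : ℕ), Squarefree m ∧
      (∀ q : ℕ, q.Prime → q ∣ m → B < q ∧ q ≡ 1 [MOD p]) ∧ (∀ u, ψ u ^ p ^ A = 1) ∧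
      ∀ t ∈ T, ∃ h : Nat.Coprime t m, ∀ f : ℕ, 0 < f → f ≤ D →
        p ^ k ∣ orderOf (ψ (ZMod.unitOfCoprime t h) ^ f) := by
  obtain ⟨m, ψ, A, hsq, hprimes, hψA, hψ⟩ := exists_cyclotomic_char p hp hp2 (k + D) T hT B
  refine ⟨m, ψ, A, hsq, hprimes, hψA, fun t ht => ?_⟩
  obtain ⟨h, hord⟩ := hψ t ht
  refine ⟨h, fun f hf0 hfD => ?_⟩
  have hpos : 0 < orderOf (ψ (ZMod.unitOfCoprime t h)) :=
    Nat.pos_of_dvd_of_pos (orderOf_dvd_of_pow_eq_one (hψA _)) (pow_pos hp.pos A)
  exact pow_dvd_orderOf_pow p hp k D _ hpos hord f hf0 hfD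

/-- **B1 + B2, quotient form.**  A squarefree modulus `m` (prime factors `> B`, `≡ 1 mod p`)
and a subgroup `N` of `(ℤ/m)ˣ` with cyclic quotient of `p`-power order in which the class of
`t ^ f` has order divisible by `p ^ k`, for all `t ∈ T` and `0 < f ≤ D`. -/
theorem exists_cyclotomic_quotient (p : ℕ) (hp : p.Prime) (hp2 : p ≠ 2) (k : ℕ) (T : Finset ℕ)
    (hT : ∀ t ∈ T, 2 ≤ t) (B D : ℕ) :
    ∃ (m : ℕ) (N : Subgroup (ZMod m)ˣ), Squarefree m ∧
      (∀ q : ℕ, q.Prime → q ∣ m → B < q ∧ q ≡ 1 [MOD p]) ∧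
      IsCyclic ((ZMod m)ˣ ⧸ N) ∧ IsPGroup p ((ZMod m)ˣ ⧸ N) ∧
      ∀ t ∈ T, ∃ h : Nat.Coprime t m, ∀ f : ℕ, 0 < f → f ≤ D →
        p ^ k ∣ orderOf ((QuotientGroup.mk (ZMod.unitOfCoprime t h) : (ZMod m)ˣ ⧸ N) ^ f) := by
  obtain ⟨m, ψ, A, hsq, hprimes, hψA, hψ⟩ := exists_cyclotomic_char_pow p hp hp2 k T hT B D
  have hmne : NeZero m := ⟨hsq.ne_zero⟩
  have hinj : Function.Injective (QuotientGroup.kerLift ψ) := QuotientGroup.kerLift_injective ψ
  refine ⟨m, ψ.ker, hsq, hprimes, ?_, ?_, fun t ht => ?_⟩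
  · refine isCyclic_of_injective_ringHom ((Units.coeHom ℂ).comp (QuotientGroup.kerLift ψ)) ?_
    exact Units.val_injective.comp hinj
  · intro x
    refine ⟨A, hinj ?_⟩
    obtain ⟨y, rfl⟩ := QuotientGroup.mk_surjective x
    rw [map_pow, map_one, QuotientGroup.kerLift_mk]
    exact hψA y
  · obtain ⟨h, hord⟩ := hψ t ht
    refine ⟨h, fun f hf0 hfD => ?_⟩
    have := hord f hf0 hfD
    rwa [← orderOf_injective (QuotientGroup.kerLift ψ) hinj, map_pow, QuotientGroup.kerLift_mk]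

end Fermat.Agent.S55.H63
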