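/-
Program C (S55), package C3, leaf L2c (`Fermat.Agent.S55.H66.LeafKummerUnram`):
a Kummer extension `F(a^{1/p})` by a unit `a`, `p ≠ q`, is unramified.
Proved from the leaf `LeafUnram` (the fields `F(μ_{Q^n - 1})` are unramified) by a Krasner-type
argument: `a^{1/p}` lies in a field generated over `F` by roots of unity of order prime to `q`.
helper63.
-/
import Fermat.Agent.S55.H63.LocalRes

set_option autoImplicit false

noncomputable section

namespace Fermat.Agent.S55.H63

open IntermediateField Polynomial Fermat.Agent.S55.H66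

variable (q : ℕ) [Fact q.Prime]

section

variable {F : Type} [Field F] [Algebra ℚ_[q] F] [Algebra F (PadicAlgCl q)]
  [IsScalarTower ℚ_[q] F (PadicAlgCl q)] [FiniteDimensional ℚ_[q] F]

/-- The Teichmüller representatives of a finite extension `L` of `F` lie in one of the fields
`unramExt q F n`, `n > 0`. -/
theorem exists_unramExt_of_pow_resCard (L : IntermediateField F (PadicAlgCl q))
    [FiniteDimensional F L] :
    ∃ n : ℕ, 0 < n ∧ ∀ ζ : PadicAlgCl q, ζ ^ (resCard q ↥L - 1) = 1 → ζ ∈ unramExt q F n := by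
  obtain ⟨a, ha, hQ⟩ := exists_resCard_eq_pow q F
  have h2 := two_le_resCard q ↥L
  have hnd := not_dvd_resCard_sub_one q ↥L
  set N := resCard q ↥L - 1 with hN
  have hN0 : 0 < N := by omega
  have hcop : Nat.Coprime (resCard q F) N := by
    rw [hQ]
    exact Nat.Coprime.pow_left _ ((Nat.Prime.coprime_iff_not_dvd (Fact.out : q.Prime)).2 hnd)
  refine ⟨Nat.totient N, Nat.totient_pos.2 hN0, fun ζ hζ => ?_⟩
  have hmod : resCard q F ^ Nat.totient N ≡ 1 [MOD N] := Nat.ModEq.pow_totient hcop
  have hdvd : N ∣ resCard q F ^ Nat.totient N - 1 :=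
    (Nat.modEq_iff_dvd' (Nat.one_le_pow _ _ (by have := two_le_resCard q F; omega))).1 hmod.symm
  obtain ⟨c, hc⟩ := hdvd
  refine IntermediateField.subset_adjoin F _ ?_
  show ζ ^ (resCard q F ^ Nat.totient N - 1) = 1
  rw [hc, pow_mul, hζ, one_pow]

end

/-- **Leaf L2c of the C3 spec**, from the leaf `LeafUnram`. -/
theorem leafKummerUnram (hU : LeafUnram q) : LeafKummerUnram q := by
  intro F _ _ _ _ _ p hp hpq a ha α hα
  classical
  have hp0 : p ≠ 0 := hp.ne_zero
  -- `α` is integral over `F`
  have hαint : IsIntegral F α := by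
    refine ⟨X ^ p - C a, monic_X_pow_sub_C a hp0, ?_⟩
    simp [hα]
  set L : IntermediateField F (PadicAlgCl q) := IntermediateField.adjoin F {α} with hL
  have hfin : FiniteDimensional F L := IntermediateField.adjoin.finiteDimensional hαint
  have hαL : α ∈ L := IntermediateField.mem_adjoin_simple_self F α
  have hα1 : ‖α‖ = 1 := by
    have h : ‖α‖ ^ p = 1 := by
      rw [← norm_pow, hα]
      exact ha
    exact (pow_eq_one_iff_of_nonneg (norm_nonneg _) hp0).1 h
  -- a Teichmüller representative of `α` in `L`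
  obtain ⟨ζ, hζ, hζα⟩ := exists_teichmuller q L ⟨α, hαL⟩ hα1
  obtain ⟨n, hn, hmem⟩ := exists_unramExt_of_pow_resCard q L
  have hζU : (ζ : PadicAlgCl q) ∈ unramExt q F n := by
    refine hmem _ ?_
    exact_mod_cast congrArg (fun x : L => (x : PadicAlgCl q)) hζ
  -- Krasner: `α ∈ unramExt q F n`
  have hpq' : ¬ q ∣ p := by
    intro h
    exact hpq ((Nat.prime_dvd_prime_iff_eq (Fact.out : q.Prime) hp).1 h).symm
  have hαU : α ∈ unramExt q F n := by
    refine mem_of_isolated_root q (unramExt q F n)
      (X ^ p - C (algebraMap F (unramExt q F n) a)) ⟨(ζ : PadicAlgCl q), hζU⟩ α ?_ ?_ ?_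
    · simp only [map_sub, map_pow, aeval_X, aeval_C]
      rw [hα]
      exact sub_self _
    · have h1 : ‖(ζ : PadicAlgCl q) - α‖ = ‖α - (ζ : PadicAlgCl q)‖ := norm_sub_rev _ _
      rw [h1]
      exact hζα
    · intro r' hr' hlt
      have hr'p : r' ^ p = algebraMap F (PadicAlgCl q) a := by
        simp only [map_sub, map_pow, aeval_X, aeval_C] at hr'
        exact sub_eq_zero.1 hr'
      have hα0 : α ≠ 0 := by
        rintro rfl
        rw [norm_zero] at hα1
        exact zero_ne_one hα1
      have hu : (r' / α) ^ p = 1 := by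
        rw [div_pow, hr'p, hα, div_self]
        rw [← hα]
        exact pow_ne_zero p hα0
      have hu1 : ‖r' / α - 1‖ < 1 := by
        have e : r' / α - 1 = (r' - α) / α := by
          field_simp
        rw [e, norm_div, hα1, div_one]
        exact hlt
      have := eq_of_pow_eq_one_of_norm_sub_lt q hpq' hu (one_pow p) hu1
      rw [div_eq_one_iff_eq hα0] at this
      exact this
  have hLU : L ≤ unramExt q F n := by
    rw [hL, IntermediateField.adjoin_simple_le_iff]
    exact hαU
  obtain ⟨-, -, -, -, hunr⟩ := hU F n hn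
  intro x
  obtain ⟨y, hy⟩ := hunr ⟨(x : PadicAlgCl q), hLU x.2⟩
  exact ⟨y, hy⟩

end Fermat.Agent.S55.H63
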