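/-
Program C (S55), package C9b, leaf (A4), second half: a field algebraic over `ℚ` has a finite
place above every prime `q` (embedding model of C5, `H88.PlaceAbove`, `H88.FinPlace`).  This is
the field `VSne` of `H70.GSArith.Good` (`p ∈ S`).  helper63.
-/
import Fermat.Agent.S55.H88.SemiLocalSpec

set_option autoImplicit false

noncomputable section

namespace Fermat.Agent.S55.H63

open Fermat.Agent.S55

attribute [local instance] H88.factOfPrimes

/-- A field algebraic over `ℚ` embeds into `PadicAlgCl q`. -/
theorem nonempty_ringHom_padicAlgCl (q : ℕ) [Fact q.Prime] (K : Type*) [Field K] [CharZero K]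
    [Algebra.IsAlgebraic ℚ K] : Nonempty (K →+* PadicAlgCl q) :=
  ⟨((IsAlgClosed.lift : K →ₐ[ℚ] PadicAlgCl q) : K →+* PadicAlgCl q)⟩

/-- A field algebraic over `ℚ` has a place above every prime. -/
theorem nonempty_placeAbove (q : ℕ) [Fact q.Prime] (K : Type*) [Field K] [CharZero K]
    [Algebra.IsAlgebraic ℚ K] : Nonempty (H88.PlaceAbove q K) :=
  (nonempty_ringHom_padicAlgCl q K).map (H88.placeOf q)

/-- A field algebraic over `ℚ` has a finite place above every prime. -/
theorem exists_finPlace_above (q : Nat.Primes) (K : Type*) [Field K] [CharZero K]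
    [Algebra.IsAlgebraic ℚ K] : ∃ v : H88.FinPlace K, v.1 = q := by
  obtain ⟨w⟩ := nonempty_placeAbove (q : ℕ) K
  exact ⟨⟨q, w⟩, rfl⟩

/-- A number field has a finite place above every prime. -/
theorem exists_finPlace_above_of_numberField (q : Nat.Primes) (K : Type*) [Field K]
    [NumberField K] : ∃ v : H88.FinPlace K, v.1 = q :=
  exists_finPlace_above q K

/-- A finite set of finite places containing all places above a nonempty set of primes is
nonempty. -/
theorem finset_finPlace_nonempty (K : Type*) [Field K] [CharZero K] [Algebra.IsAlgebraic ℚ K]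
    (S : Finset Nat.Primes) (hS : S.Nonempty) (VS : Finset (H88.FinPlace K))
    (hVS : ∀ v : H88.FinPlace K, v.1 ∈ S → v ∈ VS) : VS.Nonempty := by
  obtain ⟨q, hq⟩ := hS
  obtain ⟨v, hv⟩ := exists_finPlace_above q K
  exact ⟨v, hVS v (hv ▸ hq)⟩

end Fermat.Agent.S55.H63

end
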