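/-
Program C (S55), package C9b, leaf (A4), small data: the finite set of finite places of a number
field above a finite set of primes (embedding model of C5), and its non-emptiness.  helper63.
-/
import Fermat.Agent.S55.H63.PlaceExists

set_option autoImplicit false

noncomputable section

namespace Fermat.Agent.S55.H63

open Fermat.Agent.S55

attribute [local instance] H88.factOfPrimes

variable (K : Type*) [Field K] [NumberField K]

/-- The finite places of the number field `K` above a finite set `S` of primes. -/
def placesOver (S : Finset Nat.Primes) : Finset (H88.FinPlace K) :=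
  haveI : ∀ q : Nat.Primes, Fintype (H88.PlaceAbove (q : ℕ) K) := fun _ =>
    @Fintype.ofFinite _ (Quotient.finite _)
  S.sigma fun _ => Finset.univ

variable {K}

theorem mem_placesOver {S : Finset Nat.Primes} {v : H88.FinPlace K} :
    v ∈ placesOver K S ↔ v.1 ∈ S := by
  unfold placesOver
  constructor
  · intro h
    exact (Finset.mem_sigma.1 h).1
  · intro h
    exact Finset.mem_sigma.2 ⟨h, @Finset.mem_univ _ (_) _⟩

variable (K)

/-- There is a place above every nonempty set of primes. -/
theorem placesOver_nonempty {S : Finset Nat.Primes} (hS : S.Nonempty) :
    (placesOver K S).Nonempty := by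
  obtain ⟨q, hq⟩ := hS
  obtain ⟨v, hv⟩ := exists_finPlace_above q K
  exact ⟨v, mem_placesOver.2 (hv ▸ hq)⟩

/-- The places outside `placesOver K S` are those whose residue characteristic is not in
`S`. -/
theorem not_mem_placesOver {S : Finset Nat.Primes} {v : H88.FinPlace K} :
    v ∉ placesOver K S ↔ v.1 ∉ S :=
  not_congr mem_placesOver

end Fermat.Agent.S55.H63

end
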