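/-
Program C (S55), package C8, leaf (R-FROB) of helper6's reciprocity spec
(`H6/RecCycloSpec.lean`), task 540 (helper63).

`frobCycloStatement : H6.FrobCycloStatement`:
for `k ⊆ E ⊆ F = k(ζ_m)`, a prime `q ∤ m` and an embedding `τ'` of `E` into `PadicAlgCl q`,
the local extension `E_w / k_v` is unramified and has a Frobenius `φ` whose image in `Gal(E/k)`
is the restriction of an `s ∈ Gal(F/k)` raising the `m`-th roots of unity to the power `#k_v`.

Proof: extend `τ'` to `τ''` on `F`, put `z = τ'' ζ₀` (`ζ₀` a primitive `m`-th root of unity of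
`F`) and `L'' = k_v(z)`.  Then `L''/k_v` is unramified (`H53.isUnram_adjoin_root`), finite and
Galois (cyclotomic), so it has a Frobenius `φ''` (`leafFrob`); `φ'' ∘ τ''` is an embedding of `F`
agreeing with `τ''` on `k`, hence of the form `τ'' ∘ s`.  Take `φ = φ''|E_w`.
-/
import Fermat.Agent.S55.H6.RecCycloSpec
import Fermat.Agent.S55.H53.UnramCore
import Fermat.Agent.S55.H39.UnramUp
import Fermat.Agent.S55.H5.AFrob
import Fermat.Agent.S55.H63.Frob

set_option autoImplicit false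

noncomputable section

namespace Fermat.Agent.S55.H63

open Fermat.Agent.S55.H88 Fermat.Agent.S55.H66 IntermediateField

section RecFrob

variable (q : ℕ) [Fact q.Prime]

/-- For `F = k(ζ₀)` and an embedding `τ''` of `F` extending `τ'`, the image `τ'' F` lies in
`k_v(τ'' ζ₀)`. -/
theorem map_mem_adjoin_of_cyclo (k : Type) {E F : Type} [Field k] [Field E] [Field F]
    [Algebra k E] [Algebra k F] [Algebra E F] [IsScalarTower k E F]
    (τ' : E →+* PadicAlgCl q) (τ'' : F →+* PadicAlgCl q)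
    (hτ : τ''.comp (algebraMap E F) = τ') {m : ℕ} [NeZero m] [IsCyclotomicExtension {m} k F]
    {ζ₀ : F} (hζ₀ : IsPrimitiveRoot ζ₀ m) (x : F) :
    τ'' x ∈ (locBase q k τ')⟮τ'' ζ₀⟯ := by
  have hx : x ∈ Algebra.adjoin k ({ζ₀} : Set F) := by
    rw [IsCyclotomicExtension.adjoin_primitive_root_eq_top hζ₀]
    exact Algebra.mem_top
  induction hx using Algebra.adjoin_induction with
  | mem y hy =>
    rw [Set.mem_singleton_iff] at hy
    subst hy
    exact mem_adjoin_simple_self _ _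
  | algebraMap c =>
    have h1 : τ'' (algebraMap k F c) = τ' (algebraMap k E c) := by
      rw [IsScalarTower.algebraMap_apply k E F, ← hτ]
      rfl
    rw [h1]
    have h2 : τ' (algebraMap k E c) ∈ locBase q k τ' :=
      IntermediateField.subset_adjoin ℚ_[q] _ ⟨c, rfl⟩
    exact (locBase q k τ')⟮τ'' ζ₀⟯.algebraMap_mem ⟨_, h2⟩
  | add a b _ _ ha hb =>
    rw [map_add]
    exact add_mem ha hb
  | mul a b _ _ ha hb =>
    rw [map_mul]
    exact mul_mem ha hb

end RecFrob

/-- **(R-FROB)**, task 540: helper6's `H6.FrobCycloStatement`, verbatim. -/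
theorem frobCycloStatement : H6.FrobCycloStatement := by
  intro k E F _ _ _ _ _ _ _ _ _ _ _ m _ q _ hqm τ'
  have hm0 : m ≠ 0 := fun h0 => hqm (h0 ▸ dvd_zero q)
  have : NeZero m := ⟨hm0⟩
  -- extend `τ'` to `F`
  obtain ⟨τ'', hτ⟩ := exists_extend q (k := E) (K := F) τ'
  obtain ⟨ζ₀, hζ₀⟩ :=
    IsCyclotomicExtension.exists_isPrimitiveRoot k F (Set.mem_singleton m) hm0
  have hzm : (τ'' ζ₀) ^ m = 1 := by rw [← map_pow, hζ₀.pow_eq_one, map_one]
  have hzprim : IsPrimitiveRoot (τ'' ζ₀) m := hζ₀.map_of_injective τ''.injective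
  have hnm : ‖((m : ℕ) : PadicAlgCl q)‖ = 1 := H5.norm_natCast_eq_one q hqm
  -- the big local field `L'' = k_v(τ'' ζ₀)`
  have hUnr'' : IsUnram q (locBase q k τ') (locBase q k τ')⟮τ'' ζ₀⟯ :=
    H53.isUnram_adjoin_root q hnm hzm
  have hmem : ∀ x : F, τ'' x ∈ (locBase q k τ')⟮τ'' ζ₀⟯ :=
    map_mem_adjoin_of_cyclo q k τ' τ'' hτ hζ₀
  have hle : locExt q k τ' ≤ (locBase q k τ')⟮τ'' ζ₀⟯ := by
    intro y hy
    have hy' : y ∈ locField q τ' := hy
    have hle' : locField q τ' ≤ ((locBase q k τ')⟮τ'' ζ₀⟯).restrictScalars ℚ_[q] := by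
      refine IntermediateField.adjoin_le_iff.mpr ?_
      rintro _ ⟨x, rfl⟩
      have h1 := hmem (algebraMap E F x)
      have hx : τ' x = τ'' (algebraMap E F x) := RingHom.congr_fun hτ.symm x
      show τ' x ∈ (locBase q k τ')⟮τ'' ζ₀⟯
      rw [hx]
      exact h1
    exact hle' hy'
  have hUnr : IsUnram q (locBase q k τ') (locExt q k τ') := H39.isUnram_of_le hle hUnr''
  refine ⟨hUnr, ?_⟩
  -- `L''/k_v` is finite Galois
  have : Algebra.IsIntegral (locBase q k τ') (PadicAlgCl q) :=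
    Algebra.IsIntegral.tower_top ℚ_[q]
  have : IsCyclotomicExtension {m} (locBase q k τ') (locBase q k τ')⟮τ'' ζ₀⟯ :=
    hzprim.intermediateField_adjoin_isCyclotomicExtension (locBase q k τ')
  have : IsGalois (locBase q k τ') (locBase q k τ')⟮τ'' ζ₀⟯ :=
    IsCyclotomicExtension.isGalois {m} (locBase q k τ') _
  have : FiniteDimensional (locBase q k τ') (locBase q k τ')⟮τ'' ζ₀⟯ :=
    IsCyclotomicExtension.finiteDimensional {m} (locBase q k τ') _
  obtain ⟨φ'', hφ'', -, -⟩ := leafFrob q (locBase q k τ') (locBase q k τ')⟮τ'' ζ₀⟯ hUnr''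
  -- the embedding `φ'' ∘ τ''` of `F`
  let τ₃ : F →+* PadicAlgCl q :=
    (algebraMap (locBase q k τ')⟮τ'' ζ₀⟯ (PadicAlgCl q)).comp
      ((φ'' : (locBase q k τ')⟮τ'' ζ₀⟯ →+* (locBase q k τ')⟮τ'' ζ₀⟯).comp
        (τ''.codRestrict (locBase q k τ')⟮τ'' ζ₀⟯ hmem))
  have hτ₃ : ∀ x : F, τ₃ x = ((φ'' ⟨τ'' x, hmem x⟩ : (locBase q k τ')⟮τ'' ζ₀⟯) : PadicAlgCl q) :=
    fun _ => rfl
  have hk : τ''.comp (algebraMap k F) = τ₃.comp (algebraMap k F) := by
    refine RingHom.ext fun c => ?_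
    have h1 : τ'' (algebraMap k F c) = τ' (algebraMap k E c) := by
      rw [IsScalarTower.algebraMap_apply k E F, ← hτ]
      rfl
    have h2 : τ' (algebraMap k E c) ∈ locBase q k τ' :=
      IntermediateField.subset_adjoin ℚ_[q] _ ⟨c, rfl⟩
    have h3 : (⟨τ'' (algebraMap k F c), hmem _⟩ : (locBase q k τ')⟮τ'' ζ₀⟯) =
        algebraMap (locBase q k τ') (locBase q k τ')⟮τ'' ζ₀⟯ ⟨_, h2⟩ := Subtype.ext h1
    show τ'' (algebraMap k F c) = τ₃ (algebraMap k F c)
    rw [hτ₃, h3, AlgEquiv.commutes, h1]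
    rfl
  have : IsGalois k F := IsCyclotomicExtension.isGalois {m} k F
  obtain ⟨s, hs⟩ := exists_algEquiv_comp_eq q τ'' τ₃ hk
  have key : ∀ x : F,
      ((φ'' ⟨τ'' x, hmem x⟩ : (locBase q k τ')⟮τ'' ζ₀⟯) : PadicAlgCl q) = τ'' (s x) :=
    fun x => RingHom.congr_fun hs x
  refine ⟨resHom hle φ'', s, ?_, ?_, ?_⟩
  · -- the restriction is a Frobenius
    intro x hx
    have h1 := hφ'' (inclusion hle x) hx
    have h2 : ((resHom hle φ'' x - x ^ resCard q (locBase q k τ') : locExt q k τ') :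
        PadicAlgCl q) = ((φ'' (inclusion hle x) - (inclusion hle x) ^ resCard q (locBase q k τ') :
          (locBase q k τ')⟮τ'' ζ₀⟯) : PadicAlgCl q) := by
      rw [AddSubgroupClass.coe_sub, AddSubgroupClass.coe_sub, resHom_apply,
        SubmonoidClass.coe_pow, SubmonoidClass.coe_pow]
      rfl
    show ‖((resHom hle φ'' x - x ^ resCard q (locBase q k τ') : locExt q k τ') :
        PadicAlgCl q)‖ < 1
    rw [h2]
    exact h1
  · -- `s` raises the `m`-th roots of unity to the power `#k_v`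
    intro ζ hζ
    apply τ''.injective
    rw [← key ζ, map_pow]
    have h3 := H5.frob_rootOfUnity (locBase q k τ')⟮τ'' ζ₀⟯ φ'' hφ'' hqm ⟨τ'' ζ, hmem ζ⟩
      (by
        apply Subtype.ext
        rw [SubmonoidClass.coe_pow]
        show τ'' ζ ^ m = 1
        rw [← map_pow, hζ, map_one])
    rw [h3, SubmonoidClass.coe_pow]
  · -- compatibility with restriction to `E`
    refine AlgEquiv.ext fun x => τ'.injective ?_
    have h4 : τ' (AlgEquiv.restrictNormalHom E s x) = τ'' (s (algebraMap E F x)) := by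
      rw [← hτ]
      show τ'' (algebraMap E F (s.restrictNormal E x)) = _
      rw [AlgEquiv.restrictNormal_commutes]
    have h5 := locGalToGlobal_spec q k τ' (resHom hle φ'') x
    have h6 : τ' (locGalToGlobal q k τ' (resHom hle φ'') x) =
        ((resHom hle φ'' (locExtEmb q k τ' x) : locExt q k τ') : PadicAlgCl q) := by
      rw [h5]
      rfl
    have h7 : (⟨τ'' (algebraMap E F x), hmem _⟩ : (locBase q k τ')⟮τ'' ζ₀⟯) =
        inclusion hle (locExtEmb q k τ' x) := by
      apply Subtype.ext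
      show τ'' (algebraMap E F x) = τ' x
      rw [← hτ]
      rfl
    rw [h4, h6, resHom_apply, ← key, h7]

end Fermat.Agent.S55.H63
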